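import Fermat.Agent.LT.T6.H305.Rec

/-!
# Row LT, tower T6, leaf T6.10 `SatakeEigenC` (helper305) -- THE LEAF

OFF-MAIN.  `satakeEigenC305 : Fermat.Agent.LT.T6.SatakeEigenC` (Spec of helper22, frozen bytes):
a right `GL₂(𝒪)`-invariant function which is an eigenfunction of `T = 1_{K diag(ϖ,1) K}` and of
`S = 1_{ϖ K}` with eigenvalues `√q (x + y)` and `x y` is an eigenfunction of every `1_{K λ K}`,
with eigenvalue the Satake polynomial.

Proof: Hermite normal forms `ϖ^b [[ϖ^i, r], [0, ϖ^j]]` are a coset system of every Cartan type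
(`Sys.lean`); the classical recursion `T · T(𝔭^{n+1}) = T(𝔭^{n+2}) + q S T(𝔭ⁿ)` for the sums over
ALL Hermite forms and `T(𝔭^{n+2}) = 1_{K diag(ϖ^{n+2},1) K} + S T(𝔭ⁿ)` (`Rec.lean`).
-/

set_option autoImplicit false
set_option linter.unusedSectionVars false
set_option linter.unusedSimpArgs false
set_option linter.unnecessarySeqFocus false

open scoped Matrix
open scoped Classical

noncomputable section

namespace Fermat.Agent.LT.T6.H305

open Fermat.Agent.LT.T6

theorem satPoly_zero (q : ℕ) (x y : ℂ) : satPoly q x y 0 = 1 := by rw [satPoly]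

theorem satPoly_one (q : ℕ) (x y : ℂ) :
    satPoly q x y 1 = ((Real.sqrt q : ℝ) : ℂ) * (x + y) := by rw [satPoly]

theorem satPoly_two (q : ℕ) (x y : ℂ) :
    satPoly q x y 2 = (((Real.sqrt q : ℝ) : ℂ) * (x + y)) ^ 2 - ((q : ℂ) + 1) * (x * y) := by
  rw [satPoly]

theorem satPoly_add_three (q : ℕ) (x y : ℂ) (n : ℕ) :
    satPoly q x y (n + 3) = ((Real.sqrt q : ℝ) : ℂ) * (x + y) * satPoly q x y (n + 2)
      - (q : ℂ) * (x * y) * satPoly q x y (n + 1) := by
  rw [satPoly]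

theorem satPoly_eq_alpha (q : ℕ) (x y : ℂ) (n : ℕ) :
    satPoly q x y (n + 2)
      = alpha (((Real.sqrt q : ℝ) : ℂ) * (x + y)) (x * y) q (n + 2)
        - (x * y) * alpha (((Real.sqrt q : ℝ) : ℂ) * (x + y)) (x * y) q n := by
  have key : ∀ n : ℕ,
      (satPoly q x y (n + 2)
        = alpha (((Real.sqrt q : ℝ) : ℂ) * (x + y)) (x * y) q (n + 2)
          - (x * y) * alpha (((Real.sqrt q : ℝ) : ℂ) * (x + y)) (x * y) q n) ∧
      (satPoly q x y (n + 3)
        = alpha (((Real.sqrt q : ℝ) : ℂ) * (x + y)) (x * y) q (n + 3)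
          - (x * y) * alpha (((Real.sqrt q : ℝ) : ℂ) * (x + y)) (x * y) q (n + 1)) := by
    intro n
    induction n with
    | zero =>
      constructor
      · rw [satPoly_two, alpha_succ_succ, alpha_one, alpha_zero]
        ring
      · rw [satPoly_add_three, satPoly_two, satPoly_one, alpha_succ_succ, alpha_succ_succ,
          alpha_one, alpha_zero]
        ring
    | succ n ih =>
      refine ⟨ih.2, ?_⟩
      rw [satPoly_add_three, ih.1, ih.2, alpha_succ_succ _ _ _ (n + 2),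
        alpha_succ_succ _ _ _ n]
      ring
  exact (key n).1

variable {k : Type} [Field k] [Valued k Γ₀]

namespace ResData

variable (D : ResData k)

theorem sc_zpow_eigen (Φ : GL (Fin 2) k → ℂ) (s : ℂ) (hs : s ≠ 0)
    (hS : ∀ g, Φ (g * D.sc 1) = s * Φ g) :
    ∀ (b : ℤ) (g : GL (Fin 2) k), Φ (g * D.sc b) = s ^ b * Φ g := by
  intro b
  induction b using Int.induction_on with
  | zero =>
    intro g
    rw [D.sc_zero, mul_one, zpow_zero, one_mul]
  | succ i ih =>
    intro g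
    rw [D.sc_add, ← mul_assoc, hS, ih, zpow_add_one₀ hs]
    ring
  | pred i ih =>
    intro g
    have h1 : D.sc (-(i : ℤ)) = D.sc (-(i : ℤ) - 1) * D.sc 1 := by
      rw [← D.sc_add]
      congr 1
      ring
    have h2 := ih g
    rw [h1, ← mul_assoc, hS] at h2
    rw [zpow_sub_one₀ hs]
    field_simp
    linear_combination h2

theorem sum_Idx_fam_zero (Φ : GL (Fin 2) k → ℂ) (n : ℕ) (g : GL (Fin 2) k) :
    ∑ x ∈ D.Idx n, Φ (g * D.fam 0 x) = D.Pprim Φ n g := by
  rw [D.sum_Idx]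
  unfold Pprim Fprim
  refine Finset.sum_congr rfl (fun p _ => Finset.sum_congr rfl (fun r _ => ?_))
  rw [fam, D.sc_zero, one_mul]

theorem sum_Idx_fam (Φ : GL (Fin 2) k → ℂ) (s : ℂ) (hs : s ≠ 0)
    (hS : ∀ g, Φ (g * D.sc 1) = s * Φ g) (b : ℤ) (n : ℕ) (g : GL (Fin 2) k) :
    ∑ x ∈ D.Idx n, Φ (g * D.fam b x) = s ^ b * D.Pprim Φ n g := by
  rw [D.sum_Idx]
  unfold Pprim Fprim
  rw [Finset.mul_sum]
  refine Finset.sum_congr rfl (fun p _ => ?_)
  rw [Finset.mul_sum]
  refine Finset.sum_congr rfl (fun r _ => ?_)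
  rw [fam, D.sc_comm, ← mul_assoc, D.sc_zpow_eigen Φ s hs hS]

end ResData

/-- **T6.10 = T6.B3 (Satake, eigenvalue form)**: the leaf `SatakeEigenC` of the Spec of tower T6. -/
theorem satakeEigenC305 : SatakeEigenC := by
  intro k _ _ q hk Φ x y hx hy hinv heig lam hlam H hH g
  obtain ⟨D, hD⟩ := exists_resData hk
  have hinv' : ∀ u g : GL (Fin 2) k, InK u → Φ (g * u) = Φ g :=
    fun u g hu => hinv u g ((inU_zero_iff u).2 hu)
  have hs : x * y ≠ 0 := mul_ne_zero hx hy
  -- the eigenvalue of `S`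
  have hS : ∀ g, Φ (g * D.sc 1) = (x * y) * Φ g := by
    intro g
    have h1 := heig (1, 1) (Or.inr rfl) _ (D.isCosetSys_image 1 0 (1, 1) (by simp)) g
    have hf : (D.R 0).filter (fun r => Prim 0 0 r) = D.R 0 :=
      Finset.filter_true_of_mem (fun r _ => Or.inl rfl)
    rw [D.sum_image_fam 1 0 (fun h => Φ (g * h)), D.sum_Idx, Finset.Nat.antidiagonal_zero,
      Finset.sum_singleton] at h1
    dsimp only at h1
    rw [hf] at h1
    simp only [D.R_zero, Finset.sum_singleton, ResData.fam, D.um_zero, mul_one] at h1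
    rw [h1]
    simp [satake, satPoly_zero]
  -- the eigenvalue of `T`
  have hT : ∀ g, Φ (g * D.um 0 1 0) + ∑ d ∈ D.T, Φ (g * D.um 1 0 d)
      = (((Real.sqrt q : ℝ) : ℂ) * (x + y)) * Φ g := by
    intro g
    have h1 := heig (1, 0) (Or.inl rfl) _ (D.isCosetSys_image 0 1 (1, 0) (by simp)) g
    rw [D.sum_image_fam 0 1 (fun h => Φ (g * h)), D.sum_Idx_fam_zero,
      D.Pprim_eq_Aall_of_le_one Φ 1 le_rfl, D.Aall_one] at h1
    rw [h1]
    simp [satake, satPoly_one]
  -- the primitive sums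
  have hP : ∀ (n : ℕ) (g : GL (Fin 2) k), D.Pprim Φ n g = satPoly q x y n * Φ g := by
    intro n g
    rcases n with _ | _ | n
    · rw [D.Pprim_eq_Aall_of_le_one Φ 0 (by omega), D.Aall_zero, satPoly_zero, one_mul]
    · rw [D.Pprim_eq_Aall_of_le_one Φ 1 le_rfl, D.Aall_one, hT, satPoly_one]
    · rw [D.Pprim_eq Φ _ _ hinv' hS hT, hD, satPoly_eq_alpha]
  -- the general case
  have hlam' : lam = (((lam.1 - lam.2).toNat : ℤ) + lam.2, lam.2) := by
    rw [Int.toNat_of_nonneg (sub_nonneg.2 hlam)]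
    ext <;> simp
  have h1 := D.sum_cosetSys lam.2 (lam.1 - lam.2).toNat lam hlam' H hH (fun h => Φ (g * h))
    (fun u h hu => by
      show Φ (g * (h * u)) = Φ (g * h)
      rw [← mul_assoc]
      exact hinv' u _ hu)
  rw [h1, D.sum_Idx_fam Φ (x * y) hs hS, hP]
  unfold satake
  ring

end Fermat.Agent.LT.T6.H305

end
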