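import Fermat.Agent.LT.T6.H305.Hnf

/-!
# Row LT, tower T6, leaf T6.10 `SatakeEigenC` (helper305) -- part 5: coset systems

OFF-MAIN.  Sums of a right `GL₂(𝒪)`-invariant function over two systems of representatives of
the same cosets agree; the explicit system `sc b · um i j r` (`i + j = n`, `r ∈ R i`, primitive)
of the double coset of Cartan type `(n + b, b)`.
-/

set_option autoImplicit false
set_option linter.unusedSectionVars false
set_option linter.unusedSimpArgs false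
set_option linter.unnecessarySeqFocus false

open scoped Matrix
open scoped Classical

noncomputable section

namespace Fermat.Agent.LT.T6.H305

open Fermat.Agent.LT.T6

variable {k : Type} [Field k] [Valued k Γ₀]

/-- Sums of a right-invariant function over two systems of representatives of the same cosets. -/
theorem sum_eq_of_systems {α β : Type} (A : Finset α) (B : Finset β)
    (f : α → GL (Fin 2) k) (f' : β → GL (Fin 2) k) (Ψ : GL (Fin 2) k → ℂ)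
    (hΨ : ∀ u g : GL (Fin 2) k, InK u → Ψ (g * u) = Ψ g)
    (hAB : ∀ a ∈ A, ∃ b ∈ B, InK ((f' b)⁻¹ * f a))
    (hBA : ∀ b ∈ B, ∃ a ∈ A, InK ((f a)⁻¹ * f' b))
    (hA : ∀ a ∈ A, ∀ a' ∈ A, InK ((f a)⁻¹ * f a') → a = a')
    (hB : ∀ b ∈ B, ∀ b' ∈ B, InK ((f' b)⁻¹ * f' b') → b = b') :
    ∑ a ∈ A, Ψ (f a) = ∑ b ∈ B, Ψ (f' b) := by
  refine Finset.sum_bij (fun a ha => Classical.choose (hAB a ha)) ?_ ?_ ?_ ?_
  · intro a ha
    exact (Classical.choose_spec (hAB a ha)).1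
  · intro a₁ ha₁ a₂ ha₂ heq
    have h1 := (Classical.choose_spec (hAB a₁ ha₁)).2
    have h2 := (Classical.choose_spec (hAB a₂ ha₂)).2
    rw [heq] at h1
    apply hA a₁ ha₁ a₂ ha₂
    have : (f a₁)⁻¹ * f a₂
        = ((f' (Classical.choose (hAB a₂ ha₂)))⁻¹ * f a₁)⁻¹
          * ((f' (Classical.choose (hAB a₂ ha₂)))⁻¹ * f a₂) := by group
    rw [this]
    exact inK_mul (inK_inv h1) h2
  · intro b hb
    obtain ⟨a, ha, hab⟩ := hBA b hb
    refine ⟨a, ha, ?_⟩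
    have h1 := (Classical.choose_spec (hAB a ha)).2
    apply hB _ (Classical.choose_spec (hAB a ha)).1 b hb
    have : (f' (Classical.choose (hAB a ha)))⁻¹ * f' b
        = ((f' (Classical.choose (hAB a ha)))⁻¹ * f a) * ((f a)⁻¹ * f' b) := by group
    rw [this]
    exact inK_mul h1 hab
  · intro a ha
    have h1 := (Classical.choose_spec (hAB a ha)).2
    have e := hΨ _ (f' (Classical.choose (hAB a ha))) h1
    rw [mul_inv_cancel_left] at e
    exact e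

namespace ResData

variable (D : ResData k)

/-- The index set of the explicit system of representatives. -/
def Idx (n : ℕ) : Finset (Σ _ : ℕ × ℕ, k) :=
  (Finset.HasAntidiagonal.antidiagonal n).sigma (fun p => (D.R p.1).filter (fun r => Prim p.1 p.2 r))

/-- The explicit representatives `ϖ^b · [[ϖ^i, r], [0, ϖ^j]]`. -/
def fam (b : ℤ) (x : Σ _ : ℕ × ℕ, k) : GL (Fin 2) k := D.sc b * D.um x.1.1 x.1.2 x.2

theorem mem_Idx {n : ℕ} {x : Σ _ : ℕ × ℕ, k} :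
    x ∈ D.Idx n ↔ x.1.1 + x.1.2 = n ∧ x.2 ∈ D.R x.1.1 ∧ Prim x.1.1 x.1.2 x.2 := by
  simp [Idx, Finset.mem_sigma, Finset.mem_filter, Finset.mem_antidiagonal]

theorem cartan_fam (b : ℤ) {n : ℕ} {x : Σ _ : ℕ × ℕ, k} (hx : x ∈ D.Idx n) :
    cartan (D.fam b x) = ((n : ℤ) + b, b) := by
  obtain ⟨h1, h2, h3⟩ := D.mem_Idx.1 hx
  rw [fam, D.cartan_sc_mul, D.cartan_um _ _ _ (D.R_int _ _ h2) h3, h1]
  simp

theorem fam_inv_mul (b : ℤ) (x : Σ _ : ℕ × ℕ, k) (g : GL (Fin 2) k) :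
    (D.fam b x)⁻¹ * g = (D.um x.1.1 x.1.2 x.2)⁻¹ * (D.sc (-b) * g) := by
  rw [fam, mul_inv_rev, D.sc_inv, mul_assoc]

theorem fam_inj (b : ℤ) {n : ℕ} {x y : Σ _ : ℕ × ℕ, k} (hx : x ∈ D.Idx n) (hy : y ∈ D.Idx n)
    (h : InK ((D.fam b x)⁻¹ * D.fam b y)) : x = y := by
  obtain ⟨h1, h2, _⟩ := D.mem_Idx.1 hx
  obtain ⟨h1', h2', _⟩ := D.mem_Idx.1 hy
  have e : (D.fam b x)⁻¹ * D.fam b y = (D.um x.1.1 x.1.2 x.2)⁻¹ * D.um y.1.1 y.1.2 y.2 := by
    rw [D.fam_inv_mul, fam, ← mul_assoc (D.sc (-b)), ← D.sc_add]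
    simp [D.sc_zero]
  rw [e] at h
  obtain ⟨e1, e2, e3⟩ := D.um_inj (by omega) h2 h2' h
  obtain ⟨⟨i, j⟩, r⟩ := x
  obtain ⟨⟨i', j'⟩, r'⟩ := y
  simp only at e1 e2 e3
  subst e1
  subst e2
  subst e3
  rfl

theorem fam_cover (b : ℤ) (n : ℕ) (g : GL (Fin 2) k) (hg : cartan g = ((n : ℤ) + b, b)) :
    ∃ x ∈ D.Idx n, InK ((D.fam b x)⁻¹ * g) := by
  have h1 : cartan (D.sc (-b) * g) = ((n : ℤ), 0) := by
    rw [D.cartan_sc_mul, hg]
    simp
  obtain ⟨i, j, r, hij, hr, hp, hK⟩ := D.cover _ n h1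
  refine ⟨⟨(i, j), r⟩, D.mem_Idx.2 ⟨hij, hr, hp⟩, ?_⟩
  rw [D.fam_inv_mul]
  exact hK

/-- The sum of a right-invariant function over ANY coset system of Cartan type `(n + b, b)` is
the sum over the explicit system. -/
theorem sum_cosetSys (b : ℤ) (n : ℕ) (lam : ℤ × ℤ) (hlam : lam = ((n : ℤ) + b, b))
    (H : Finset (GL (Fin 2) k)) (hH : IsCosetSys lam H) (Ψ : GL (Fin 2) k → ℂ)
    (hΨ : ∀ u g : GL (Fin 2) k, InK u → Ψ (g * u) = Ψ g) :
    ∑ h ∈ H, Ψ h = ∑ x ∈ D.Idx n, Ψ (D.fam b x) := by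
  subst hlam
  obtain ⟨hH1, hH2, hH3⟩ := hH
  refine sum_eq_of_systems H (D.Idx n) id (D.fam b) Ψ hΨ ?_ ?_ ?_ ?_
  · intro h hh
    exact D.fam_cover b n h (hH1 h hh)
  · intro x hx
    obtain ⟨h, hh, hK⟩ := hH3 (D.fam b x) (D.cartan_fam b hx)
    exact ⟨h, hh, (inU_zero_iff _).1 hK⟩
  · intro h hh h' hh' hK
    exact hH2 h hh h' hh' ((inU_zero_iff _).2 hK)
  · intro x hx y hy hK
    exact D.fam_inj b hx hy hK

/-- The explicit system is a coset system. -/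
theorem isCosetSys_image (b : ℤ) (n : ℕ) (lam : ℤ × ℤ) (hlam : lam = ((n : ℤ) + b, b)) :
    IsCosetSys lam ((D.Idx n).image (D.fam b)) := by
  subst hlam
  refine ⟨?_, ?_, ?_⟩
  · intro h hh
    obtain ⟨x, hx, rfl⟩ := Finset.mem_image.1 hh
    exact D.cartan_fam b hx
  · intro h hh h' hh' hK
    obtain ⟨x, hx, rfl⟩ := Finset.mem_image.1 hh
    obtain ⟨y, hy, rfl⟩ := Finset.mem_image.1 hh'
    rw [D.fam_inj b hx hy ((inU_zero_iff _).1 hK)]
  · intro g hg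
    obtain ⟨x, hx, hK⟩ := D.fam_cover b n g hg
    exact ⟨D.fam b x, Finset.mem_image.2 ⟨x, hx, rfl⟩, (inU_zero_iff _).2 hK⟩

theorem sum_image_fam (b : ℤ) (n : ℕ) (Ψ : GL (Fin 2) k → ℂ) :
    ∑ h ∈ (D.Idx n).image (D.fam b), Ψ h = ∑ x ∈ D.Idx n, Ψ (D.fam b x) := by
  rw [Finset.sum_image]
  intro x hx y hy hxy
  apply D.fam_inj b hx hy
  rw [hxy, inv_mul_cancel]
  exact inK_one

/-- The sum over the explicit system as a double sum. -/
theorem sum_Idx (n : ℕ) (F : (Σ _ : ℕ × ℕ, k) → ℂ) :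
    ∑ x ∈ D.Idx n, F x
      = ∑ p ∈ Finset.HasAntidiagonal.antidiagonal n,
          ∑ r ∈ (D.R p.1).filter (fun r => Prim p.1 p.2 r), F ⟨p, r⟩ := by
  rw [Idx, Finset.sum_sigma]

end ResData

end Fermat.Agent.LT.T6.H305

end
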