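import Fermat.Agent.LT.T6.H783.BadSpec

/-!
# Row LT, tower T6, leaf T6.18g `CenNormC783` (twisted descent at the centre): SUB-SPEC (helper305)

OFF-MAIN.  Definitions + frozen sub-leaf Props of `CenNormC783` (`BadSpec.lean` of helper783).
Mathlib + `T6/Spec.lean` (helper22) + `T6/H783/BadSpec.lean` (helper783) only.  The tops are in
`CenNormTop.lean`:

* `cenNorm_of_leaves305 : CenOneC305 → TranslC305 → CenNormC783` (PROVED)
* `cenNorm_of_all305` (PROVED): `CenNormC783` from the eleven leaves `a`–`k`, the inputs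
  `NormInjC`, `OrbSumExC`, `OrbSumUniqC` (T6 spec), `LvlC783`, `AddC783` (helper783) and the two
  GLUE leaves
  - `CenOneTopC305 = DescC305 → RootInjC305 → RootSurjC305 → RootSmoothC305 → NormInjC →
      OrbSumExC → LvlC783 → CentPowC305 → RegPowC305 → CptGC305 → CenOneC305`,
  - `DescTopC305 = CompactC305 → FibreC305 → GenLvlC305 → AddC783 → OrbSumUniqC →
      CptGC305 → PhiTwSuppC305 → RegPowC305 → DescC305`.

## Notation

`G = GL₂(k)`, `G' = GL₂(k')`, `ι = Matrix.GeneralLinearGroup.map i : G → G'`, `σ = glAut s`,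
`N δ = twNorm s l δ`.  `H_c = {h ∈ G : |tr h - 2| ≤ exp(-c), |det h - 1| ≤ exp(-c)}` (`InH305 c`),
a conjugation invariant open and closed neighbourhood of `1`.  For `h ∈ G`: `N (ι h) = ι (h ^ l)`.

## The proof (helper783's header step 3a; helper301's memo §4, "Theorem C1")

0. **TRANSLATE** (`TranslC305`).  `z = N ζ`: with `φ_ζ(g) = φ(ζ g)`, `TO_{ζ⁻¹ δ}(φ_ζ) = TO_δ(φ)`,
   `N(ζ⁻¹ δ) = z⁻¹ N δ`; a solution `f₁` for `φ_ζ` at `(2, 1)` gives `f(γ) = f₁(z⁻¹ γ)` at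
   `(2 z, z²)`.  So `z = 1` (`CenOneC305`).
1. **DESCENT** (`DescC305`): there are `c`, `m₀` and `Φ` on `G`, bi-`U(m₀)`-invariant of finite
   support, with `TO_{ι h}(φ) = O_h(Φ)` for all `h ∈ H_c` with `h ^ l` regular.
   * `CompactC305` (Harish-Chandra's compactness lemma at the semisimple element `σ` of
     `G' ⋊ ⟨σ⟩`; on the tree: `d(v, h σ v) ≤ R`, `h ∈ H_c` forces `v` into a bounded
     neighbourhood of the tree of `G`): the `x ∈ G'` with `x⁻¹ ι(h) σ(x) ∈ supp φ` for some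
     `h ∈ H_c`, `h ^ l` regular, lie in FINITELY many double cosets `ι(G) y U'(n)`, `y ∈ Y`.
   * `FibreC305` (re-indexing): the twisted centraliser of `ι h` is `ι(T_h)`, `T_h` the
     centraliser of `h` in `G`; `T_h \ G y U'(n) / U'(n) = T_h \ G / Γ_y`,
     `Γ_y = {g ∈ G : y⁻¹ ι(g) y ∈ U'(n)}` (`InGam305`); so
     `TO_{ι h}(φ) = ∑_{y ∈ Y} O^{Γ_y}_h(φ_y)`, `φ_y(g) = φ(y⁻¹ ι(g) σ(y))` (`phiTw305`), where
     `O^{Γ}` is the orbit sum with respect to `Γ` (classes modulo conjugation by `Γ`, weights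
     `[T^c : T^c ∩ Γ]`).
   * `GenLvlC305` (level change `Γ_y ⊇ U(m)`): `O^{U(m)}_h(ψ) = [Γ_y : U(m)] · O^{Γ_y}_h(ψ)` for
     `ψ` invariant under conjugation by `Γ_y`, `h` regular.
   * `Φ = ∑_{y ∈ Y} [Γ_y : U(m₀)]⁻¹ φ_y` (`AddC783`, `OrbSumUniqC`, `PhiTwSuppC305`).
2. **ROOT**: `h ↦ h ^ l` on `H_c`, `c ≥ c₀(k, l)`: injective (`RootInjC305`), onto a
   neighbourhood `H_N` of `1` (`RootSurjC305`), open with a locally uniformly continuous inverse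
   (`RootSmoothC305`).  All three in the commutative algebra `k[h]`:
   `h ^ l = P + Q (h - 1)`, `P`, `Q` polynomials in `a = tr h - 2`, `b = det(h - 1)`,
   `P ≡ 1`, `Q ≡ l` modulo `(a, b)`; binomial series for the inverse (`char k = 0`, complete).
3. **TOP** (`cenOne_of_leaves305`): `f(h ^ l) = κ⁻¹ Φ(h)` for `h ∈ H_c`, `f = 0` outside `H_c ^ l`
   (`κ = [U(m₀) : U(m)]` of `LvlC783`).  For `γ = h ^ l ∈ H_N` regular: `γ = N(ι h)` IS a norm
   (second clause of `MatchOn783` is void); if `N δ ∼ ι γ` then `δ` is `σ`-conjugate to `ι h`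
   (`NormInjC`), `TO_δ(φ) = TO_{ι h}(φ) = O_h(Φ) = O_γ(f)` (transport of the representatives by
   the root; the centralisers of `h` and `h ^ l` agree, `CentPowC305`).
-/

set_option autoImplicit false

open scoped Matrix

noncomputable section

namespace Fermat.Agent.LT.T6.H305

open Fermat.Agent.LT.T6 Fermat.Agent.LT.T6.H783

/-! ## Definitions -/

/-- The conjugation invariant neighbourhood `H_c` of `1`: the `χ`-ball of radius `exp(-c)`
around `(2, 1)`. -/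
def InH305 {k : Type} [Field k] [Valued k Γ₀] (c : ℤ) (h : GL (Fin 2) k) : Prop :=
  InChiBall783 (2 : k) 1 c h

/-- `φ_y(g) = φ(y⁻¹ ι(g) σ(y))`, a function on `GL₂(k)`. -/
def phiTw305 {k k' : Type} [Field k] [Field k'] (i : k →+* k') (s : k' ≃+* k')
    (φ : GL (Fin 2) k' → ℂ) (y : GL (Fin 2) k') : GL (Fin 2) k → ℂ :=
  fun g => φ (y⁻¹ * Matrix.GeneralLinearGroup.map i g * glAut s y)

/-- The compact open subgroup `Γ_y = {g ∈ GL₂(k) : y⁻¹ ι(g) y ∈ U'(n)}` of `GL₂(k)`, as a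
predicate. -/
def InGam305 {k k' : Type} [Field k] [Field k'] [Valued k' Γ₀] (i : k →+* k') (n : ℕ)
    (y : GL (Fin 2) k') (g : GL (Fin 2) k) : Prop :=
  InU n (y⁻¹ * Matrix.GeneralLinearGroup.map i g * y)

/-- The orbit sum on `GL₂(k)` with respect to the subgroup `Γ_y`: classes modulo conjugation by
`Γ_y`, weights `[T^c : T^c ∩ Γ_y]`. -/
def IsOrbSumGam305 {k k' : Type} [Field k] [Field k'] [Valued k Γ₀] [Valued k' Γ₀]
    (i : k →+* k') (n : ℕ) (y : GL (Fin 2) k') (ψ : GL (Fin 2) k → ℂ) (h : GL (Fin 2) k)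
    (c : ℂ) : Prop :=
  IsOrbSumGen (glAut (RingEquiv.refl k)) (InGam305 i n y) (InTwCentC (RingEquiv.refl k)) ψ h c

/-! ## Step 0: translation to `z = 1` -/

/-- **The central point `(2, 1)`** (`z = 1`). -/
def CenOneC305 : Prop :=
  ∀ (k k' : Type) [Field k] [Field k'] [Valued k Γ₀] [Valued k' Γ₀] (q l e : ℕ)
    (i : k →+* k') (s : k' ≃+* k') (n : ℕ) (φ : GL (Fin 2) k' → ℂ),
    BadData783 k k' q l e i s n φ →
    ∃ (N : ℤ) (m : ℕ) (f : GL (Fin 2) k → ℂ), IsLocSol783 l i s n φ 2 1 N m f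

/-- **T6.18g.a (translation).**  `z = N ζ`: a local solution at `(2, 1)` for
`φ_ζ(g) = φ(ζ g)` gives a local solution at `(2 z, z²)` for `φ` (`f(γ) = f₁(z⁻¹ γ)`). -/
def TranslC305 : Prop :=
  ∀ (k k' : Type) [Field k] [Field k'] [Valued k Γ₀] [Valued k' Γ₀] (q l e : ℕ)
    (i : k →+* k') (s : k' ≃+* k') (n : ℕ) (φ : GL (Fin 2) k' → ℂ),
    BadData783 k k' q l e i s n φ →
    ∀ (z : k) (ζ : k'ˣ), z ≠ 0 → i z = ∏ j ∈ Finset.range l, (s ^ j) (ζ : k') →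
    ∀ (N : ℤ) (m : ℕ) (f : GL (Fin 2) k → ℂ),
      IsLocSol783 l i s n (fun g => φ (Matrix.GeneralLinearGroup.scalar (Fin 2) ζ * g))
        2 1 N m f →
      ∃ (N' : ℤ) (m' : ℕ) (f' : GL (Fin 2) k → ℂ),
        IsLocSol783 l i s n φ (2 * z) (z ^ 2) N' m' f'

/-! ## Step 2: the `l`-th root on `H_c` -/

/-- **T6.18g.b (root, injectivity).**  `h ↦ h ^ l` is injective on `H_{c₀}`. -/
def RootInjC305 : Prop :=
  ∀ (k : Type) [Field k] [Valued k Γ₀] (q : ℕ), IsLocalField k q → ∀ l : ℕ, l.Prime →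
    ∃ c₀ : ℤ, ∀ h h' : GL (Fin 2) k, InH305 c₀ h → InH305 c₀ h' → h ^ l = h' ^ l → h = h'

/-- **T6.18g.c (root, existence).**  For every `c` the image of `H_c` under `h ↦ h ^ l` contains
some `H_N`. -/
def RootSurjC305 : Prop :=
  ∀ (k : Type) [Field k] [Valued k Γ₀] (q : ℕ), IsLocalField k q → ∀ l : ℕ, l.Prime →
    ∀ c : ℤ, ∃ N : ℤ, ∀ γ : GL (Fin 2) k, InH305 N γ →
      ∃ h : GL (Fin 2) k, InH305 c h ∧ h ^ l = γ

/-- **T6.18g.d (root, smoothness).**  For `c ≥ c₀`: the image of `H_c` is open and the inverse is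
uniformly continuous on bounded sets: for `h ∈ H_c` with entries bounded by `exp B` and
`u, u' ∈ U(m)`, `m = m(B, m₀)`, there is `h' ∈ H_c ∩ U(m₀) h U(m₀)` with
`h' ^ l = u h ^ l u'`. -/
def RootSmoothC305 : Prop :=
  ∀ (k : Type) [Field k] [Valued k Γ₀] (q : ℕ), IsLocalField k q → ∀ l : ℕ, l.Prime →
    ∃ c₀ : ℤ, ∀ c : ℤ, c₀ ≤ c → ∀ (B : ℤ) (m₀ : ℕ), ∃ m : ℕ,
      ∀ h : GL (Fin 2) k, InH305 c h → entryMax h ≤ WithZero.exp B →
        ∀ u u' : GL (Fin 2) k, InU m u → InU m u' →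
          ∃ h' : GL (Fin 2) k, InH305 c h' ∧ h' ^ l = u * h ^ l * u' ∧
            ∃ v v' : GL (Fin 2) k, InU m₀ v ∧ InU m₀ v' ∧ h' = v * h * v'

/-- **T6.18g.j (regularity of the root).**  If `h ^ l` is regular then `h` is regular. -/
def RegPowC305 : Prop :=
  ∀ (k : Type) [Field k] (h : GL (Fin 2) k) (l : ℕ), IsReg (h ^ l) → IsReg h

/-- **T6.18g.k (centraliser of the root).**  If `g ^ l` is regular, the centraliser of `g ^ l`
is the centraliser of `g` (`g ^ l = P + Q g` with `Q ≠ 0`). -/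
def CentPowC305 : Prop :=
  ∀ (k : Type) [Field k] (g t : GL (Fin 2) k) (l : ℕ), IsReg (g ^ l) →
    t * g ^ l = g ^ l * t → t * g = g * t

/-! ## Compactness in `GL₂(k)` -/

/-- **T6.18g.e (bounded sets are compact).**  The set `{g : entries ≤ exp B, |det g| ≥ exp(-B)}`
is covered by finitely many cosets `x U(m)`. -/
def CptGC305 : Prop :=
  ∀ (k : Type) [Field k] [Valued k Γ₀] (q : ℕ), IsLocalField k q →
    ∀ (B : ℤ) (m : ℕ), ∃ F : Finset (GL (Fin 2) k),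
      ∀ g : GL (Fin 2) k, entryMax g ≤ WithZero.exp B →
        WithZero.exp (-B) ≤ Valued.v (g : Matrix (Fin 2) (Fin 2) k).det →
        ∃ x ∈ F, ∃ u : GL (Fin 2) k, InU m u ∧ g = x * u

/-- **T6.18g.i (support of `φ_y`).**  `φ_y` is supported on finitely many cosets `x U(m)`
(`ι(g) ∈ y (supp φ) σ(y)⁻¹` is bounded, `v(i x) = v(x) ^ e`; then `CptGC305`). -/
def PhiTwSuppC305 : Prop :=
  CptGC305 →
  ∀ (k k' : Type) [Field k] [Field k'] [Valued k Γ₀] [Valued k' Γ₀] (q l e : ℕ)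
    (i : k →+* k') (s : k' ≃+* k') (n : ℕ) (φ : GL (Fin 2) k' → ℂ),
    BadData783 k k' q l e i s n φ →
    ∀ (y : GL (Fin 2) k') (m : ℕ), HasFinSupp (InU m) (phiTw305 i s φ y)

/-! ## Step 1: the descent -/

/-- **Descent at `1`.**  There are `c`, `m₀`, `Φ` with `TO_{ι h}(φ) = O_h(Φ)` for `h ∈ H_c`,
`h ^ l` regular. -/
def DescC305 : Prop :=
  ∀ (k k' : Type) [Field k] [Field k'] [Valued k Γ₀] [Valued k' Γ₀] (q l e : ℕ)
    (i : k →+* k') (s : k' ≃+* k') (n : ℕ) (φ : GL (Fin 2) k' → ℂ),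
    BadData783 k k' q l e i s n φ →
    ∃ (c : ℤ) (m₀ : ℕ) (Φ : GL (Fin 2) k → ℂ), IsBiInv (InU m₀) Φ ∧ HasFinSupp (InU m₀) Φ ∧
      ∀ h : GL (Fin 2) k, InH305 c h → IsReg (h ^ l) →
        ∀ c₁ c₂ : ℂ, IsTwOrbSum s n φ (Matrix.GeneralLinearGroup.map i h) c₁ →
          IsOrbSum m₀ Φ h c₂ → c₁ = c₂

/-- **T6.18g.f (compactness modulo `G`; Harish-Chandra's compactness lemma at `σ`).**  There are
`c` and a finite set `Y ⊂ G'` such that every `x ∈ G'` with `φ(x⁻¹ ι(h) σ(x)) ≠ 0` for some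
`h ∈ H_c`, `h ^ l` regular, lies in `ι(G) y U'(n)` for some `y ∈ Y`. -/
def CompactC305 : Prop :=
  ∀ (k k' : Type) [Field k] [Field k'] [Valued k Γ₀] [Valued k' Γ₀] (q l e : ℕ)
    (i : k →+* k') (s : k' ≃+* k') (n : ℕ) (φ : GL (Fin 2) k' → ℂ),
    BadData783 k k' q l e i s n φ →
    ∃ (c : ℤ) (Y : Finset (GL (Fin 2) k')),
      ∀ (h : GL (Fin 2) k) (x : GL (Fin 2) k'), InH305 c h → IsReg (h ^ l) →
        φ (x⁻¹ * Matrix.GeneralLinearGroup.map i h * glAut s x) ≠ 0 →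
        ∃ g : GL (Fin 2) k, ∃ y ∈ Y, ∃ u : GL (Fin 2) k', InU n u ∧
          x = Matrix.GeneralLinearGroup.map i g * y * u

/-- **T6.18g.g (fibration of the twisted orbit).**  `Y` a finite set of representatives of
pairwise different double cosets `ι(G) y U'(n)` which contain all `x` with
`φ(x⁻¹ ι(h) σ(x)) ≠ 0`, `h ^ l` regular: `TO_{ι h}(φ) = ∑_{y ∈ Y} O^{Γ_y}_h(φ_y)`. -/
def FibreC305 : Prop :=
  ∀ (k k' : Type) [Field k] [Field k'] [Valued k Γ₀] [Valued k' Γ₀] (q l e : ℕ)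
    (i : k →+* k') (s : k' ≃+* k') (n : ℕ) (φ : GL (Fin 2) k' → ℂ),
    BadData783 k k' q l e i s n φ →
    ∀ Y : Finset (GL (Fin 2) k'),
      (∀ y ∈ Y, ∀ y' ∈ Y,
        (∃ (g : GL (Fin 2) k) (u : GL (Fin 2) k'), InU n u ∧
          y' = Matrix.GeneralLinearGroup.map i g * y * u) → y = y') →
      ∀ h : GL (Fin 2) k, IsReg (h ^ l) →
        (∀ x : GL (Fin 2) k', φ (x⁻¹ * Matrix.GeneralLinearGroup.map i h * glAut s x) ≠ 0 →
          ∃ g : GL (Fin 2) k, ∃ y ∈ Y, ∃ u : GL (Fin 2) k', InU n u ∧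
            x = Matrix.GeneralLinearGroup.map i g * y * u) →
        ∀ c₁ : ℂ, IsTwOrbSum s n φ (Matrix.GeneralLinearGroup.map i h) c₁ →
          ∃ a : GL (Fin 2) k' → ℂ,
            (∀ y ∈ Y, IsOrbSumGam305 i n y (phiTw305 i s φ y) h (a y)) ∧ c₁ = ∑ y ∈ Y, a y

/-- **T6.18g.h (level change `Γ_y ⊇ U(m)`).**  For `m ≥ m₁(y)`: `U(m) ⊆ Γ_y` and, with
`κ = [Γ_y : U(m)]`, `O^{U(m)}_h(ψ) = κ · O^{Γ_y}_h(ψ)` for `ψ` invariant under conjugation by
`Γ_y` and `h` regular (the `Γ_y`-class of `g` is the union of the `U(m)`-classes of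
`γ⁻¹ g γ`, `γ ∈ (T_g ∩ Γ_y) \ Γ_y / U(m)`, and
`∑_γ [T_g^c : T_g^c ∩ γ U(m) γ⁻¹] = [T_g^c : T_g^c ∩ Γ_y] · #(Γ_y / U(m))`). -/
def GenLvlC305 : Prop :=
  ∀ (k k' : Type) [Field k] [Field k'] [Valued k Γ₀] [Valued k' Γ₀] (q l e : ℕ)
    (i : k →+* k') (s : k' ≃+* k'),
    IsLocalField k q → IsLocalField k' (q ^ (l / e)) → IsLocalExt k k' l e i s →
    ∀ (n : ℕ) (y : GL (Fin 2) k'), ∃ m₁ : ℕ, ∀ m : ℕ, m₁ ≤ m → ∃ κ : ℕ, κ ≠ 0 ∧
      (∀ u : GL (Fin 2) k, InU m u → InGam305 i n y u) ∧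
      ∀ ψ : GL (Fin 2) k → ℂ,
        (∀ u g : GL (Fin 2) k, InGam305 i n y u → ψ (u⁻¹ * g * u) = ψ g) →
        ∀ (h : GL (Fin 2) k) (c : ℂ), IsReg h → IsOrbSumGam305 i n y ψ h c →
          IsOrbSum m ψ h ((κ : ℂ) * c)

/-! ## The two glue leaves -/

/-- **T6.18g.T1 (glue of the descent)**, step 1 of the header:
`Φ = ∑_{y ∈ Y₀} [Γ_y : U(m₀)]⁻¹ φ_y`, `Y₀ ⊆ Y` representatives of the double cosets. -/
def DescTopC305 : Prop :=
  CompactC305 → FibreC305 → GenLvlC305 → AddC783 → OrbSumUniqC → CptGC305 → PhiTwSuppC305 →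
    RegPowC305 → DescC305

/-- **T6.18g.T2 (glue at the central point `(2, 1)`)**, step 3 of the header:
`f(h ^ l) = κ⁻¹ Φ(h)` on `H_c ^ l`. -/
def CenOneTopC305 : Prop :=
  DescC305 → RootInjC305 → RootSurjC305 → RootSmoothC305 → NormInjC → OrbSumExC → LvlC783 →
    CentPowC305 → RegPowC305 → CptGC305 → CenOneC305

end Fermat.Agent.LT.T6.H305

end
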