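import Fermat.Agent.LT.T6.Spec

/-!
# Row LT, tower T6, leaf T6.10 `SatakeEigenC` (helper305) -- part 1: the group `GL₂(𝒪)`

OFF-MAIN.  Elementary facts on `K = GL₂(𝒪) = {g : InU 0 g}` for a field `k` with a valuation in
`ℤᵐ⁰`: it is a subgroup, `g ∈ K` iff the entries of `g` are integral and `det g` is a unit;
explicit elements `mk2`.
-/

set_option autoImplicit false
set_option linter.unusedSectionVars false

open scoped Matrix

noncomputable section

namespace Fermat.Agent.LT.T6.H305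

open Fermat.Agent.LT.T6

variable {k : Type} [Field k] [Valued k Γ₀]

/-- `g ∈ GL₂(𝒪)`: the entries of `g` and of `g⁻¹` are integral. -/
def InK (g : GL (Fin 2) k) : Prop :=
  (∀ i j, Valued.v ((g : Matrix (Fin 2) (Fin 2) k) i j) ≤ 1) ∧
    ∀ i j, Valued.v (((g⁻¹ : GL (Fin 2) k) : Matrix (Fin 2) (Fin 2) k) i j) ≤ 1

theorem val_one_apply_le (i j : Fin 2) :
    Valued.v ((1 : Matrix (Fin 2) (Fin 2) k) i j) ≤ 1 := by
  rw [Matrix.one_apply]
  split_ifs <;> simp

theorem inU_zero_iff (g : GL (Fin 2) k) : InU 0 g ↔ InK g := by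
  have key : ∀ (x : k) (i j : Fin 2),
      Valued.v (x - (1 : Matrix (Fin 2) (Fin 2) k) i j) ≤ WithZero.exp (-((0 : ℕ) : ℤ))
        ↔ Valued.v x ≤ 1 := by
    intro x i j
    simp only [Nat.cast_zero, neg_zero, WithZero.exp_zero]
    constructor
    · intro h
      have := Valuation.map_add_le (Valued.v) h (val_one_apply_le (k := k) i j)
      simpa using this
    · intro h
      exact Valuation.map_sub_le (Valued.v) h (val_one_apply_le i j)
  unfold InU InK
  constructor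
  · intro h
    exact ⟨fun i j => (key _ i j).1 (h i j).1, fun i j => (key _ i j).1 (h i j).2⟩
  · intro h i j
    exact ⟨(key _ i j).2 (h.1 i j), (key _ i j).2 (h.2 i j)⟩

theorem inK_one : InK (1 : GL (Fin 2) k) := by
  refine ⟨fun i j => ?_, fun i j => ?_⟩
  · simpa using val_one_apply_le (k := k) i j
  · simpa using val_one_apply_le (k := k) i j

theorem inK_inv {g : GL (Fin 2) k} (h : InK g) : InK g⁻¹ :=
  ⟨h.2, by simpa using h.1⟩

theorem val_mul_apply_le {A B : Matrix (Fin 2) (Fin 2) k}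
    (hA : ∀ i j, Valued.v (A i j) ≤ 1) (hB : ∀ i j, Valued.v (B i j) ≤ 1) (i j : Fin 2) :
    Valued.v ((A * B) i j) ≤ 1 := by
  rw [Matrix.mul_apply]
  refine Valuation.map_sum_le _ (fun l _ => ?_)
  rw [map_mul]
  exact mul_le_one' (hA i l) (hB l j)

theorem inK_mul {g h : GL (Fin 2) k} (hg : InK g) (hh : InK h) : InK (g * h) := by
  refine ⟨fun i j => ?_, fun i j => ?_⟩
  · simpa using val_mul_apply_le hg.1 hh.1 i j
  · rw [mul_inv_rev]
    simpa using val_mul_apply_le hh.2 hg.2 i j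

/-- The matrix `[[a, b], [c, d]]` of nonzero determinant, as an element of `GL₂(k)`. -/
def mk2 (a b c d : k) (h : a * d - b * c ≠ 0) : GL (Fin 2) k :=
  Matrix.GeneralLinearGroup.mkOfDetNeZero !![a, b; c, d] (by rwa [Matrix.det_fin_two_of])

@[simp] theorem mk2_val (a b c d : k) (h : a * d - b * c ≠ 0) :
    ((mk2 a b c d h : GL (Fin 2) k) : Matrix (Fin 2) (Fin 2) k) = !![a, b; c, d] := rfl

theorem det_ne_zero (g : GL (Fin 2) k) : (g : Matrix (Fin 2) (Fin 2) k).det ≠ 0 := by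
  have h := Matrix.GeneralLinearGroup.det g |>.ne_zero
  simpa using h

theorem inv_val_eq (g : GL (Fin 2) k) :
    ((g⁻¹ : GL (Fin 2) k) : Matrix (Fin 2) (Fin 2) k)
      = !![(g : Matrix (Fin 2) (Fin 2) k) 1 1 / (g : Matrix (Fin 2) (Fin 2) k).det,
            -(g : Matrix (Fin 2) (Fin 2) k) 0 1 / (g : Matrix (Fin 2) (Fin 2) k).det;
           -(g : Matrix (Fin 2) (Fin 2) k) 1 0 / (g : Matrix (Fin 2) (Fin 2) k).det,
            (g : Matrix (Fin 2) (Fin 2) k) 0 0 / (g : Matrix (Fin 2) (Fin 2) k).det] := by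
  rw [Matrix.coe_units_inv, Matrix.inv_def, Matrix.adjugate_fin_two, Ring.inverse_eq_inv']
  ext i j
  fin_cases i <;> fin_cases j <;> simp [div_eq_inv_mul]

theorem val_det_le_one {A : Matrix (Fin 2) (Fin 2) k} (hA : ∀ i j, Valued.v (A i j) ≤ 1) :
    Valued.v A.det ≤ 1 := by
  rw [Matrix.det_fin_two]
  refine Valuation.map_sub_le _ ?_ ?_
  · rw [map_mul]; exact mul_le_one' (hA 0 0) (hA 1 1)
  · rw [map_mul]; exact mul_le_one' (hA 0 1) (hA 1 0)

theorem inK_iff (g : GL (Fin 2) k) :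
    InK g ↔ (∀ i j, Valued.v ((g : Matrix (Fin 2) (Fin 2) k) i j) ≤ 1) ∧
      Valued.v (g : Matrix (Fin 2) (Fin 2) k).det = 1 := by
  constructor
  · intro h
    refine ⟨h.1, ?_⟩
    have h1 := val_det_le_one h.1
    have h2 := val_det_le_one h.2
    have h3 : (g : Matrix (Fin 2) (Fin 2) k).det
        * ((g⁻¹ : GL (Fin 2) k) : Matrix (Fin 2) (Fin 2) k).det = 1 := by
      rw [← Matrix.det_mul, ← Units.val_mul, mul_inv_cancel]
      simp
    have h4 : Valued.v (g : Matrix (Fin 2) (Fin 2) k).det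
        * Valued.v ((g⁻¹ : GL (Fin 2) k) : Matrix (Fin 2) (Fin 2) k).det = 1 := by
      rw [← map_mul, h3, map_one]
    refine le_antisymm h1 ?_
    calc (1 : Γ₀) = Valued.v (g : Matrix (Fin 2) (Fin 2) k).det
        * Valued.v ((g⁻¹ : GL (Fin 2) k) : Matrix (Fin 2) (Fin 2) k).det := h4.symm
      _ ≤ Valued.v (g : Matrix (Fin 2) (Fin 2) k).det * 1 := by gcongr
      _ = _ := mul_one _
  · rintro ⟨h1, h2⟩
    refine ⟨h1, fun i j => ?_⟩
    rw [inv_val_eq]
    fin_cases i <;> fin_cases j <;> simp [h2, h1]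

end Fermat.Agent.LT.T6.H305

end
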