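import Fermat.Agent.LT.T6.H305.Basic

/-!
# Row LT, tower T6, leaf T6.10 `SatakeEigenC` (helper305) -- part 2: residue data and digits

OFF-MAIN.  A uniformiser and a residue system containing `0`; the systems of representatives
`R i` of `𝒪 / ϖ^i 𝒪` (digit expansions).
-/

set_option autoImplicit false
set_option linter.unusedSectionVars false

open scoped Matrix
open scoped Classical

noncomputable section

namespace Fermat.Agent.LT.T6.H305

open Fermat.Agent.LT.T6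

variable {k : Type} [Field k] [Valued k Γ₀]

theorem lt_one_iff_le_exp (γ : Γ₀) : γ < 1 ↔ γ ≤ WithZero.exp (-1 : ℤ) := by
  rcases eq_or_ne γ 0 with rfl | h
  · simp
  · have h1 : (1 : Γ₀) = WithZero.exp (0 : ℤ) := rfl
    rw [← WithZero.exp_log h, h1, WithZero.exp_lt_exp, WithZero.exp_le_exp]
    omega

/-- A uniformiser and a residue system containing `0`. -/
structure ResData (k : Type) [Field k] [Valued k Γ₀] where
  /-- the uniformiser -/
  ϖ : k
  hϖ : Valued.v ϖ = WithZero.exp (-1 : ℤ)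
  /-- the residue system -/
  T : Finset k
  zero_mem : (0 : k) ∈ T
  int : ∀ x ∈ T, Valued.v x ≤ 1
  sep : ∀ x ∈ T, ∀ y ∈ T, x ≠ y → Valued.v (x - y) = 1
  cov : ∀ z : k, Valued.v z ≤ 1 → ∃ x ∈ T, Valued.v (z - x) < 1

theorem exists_resData {q : ℕ} (hk : IsLocalField k q) :
    ∃ D : ResData k, D.T.card = q := by
  obtain ⟨ϖ, hϖ⟩ := hk.unif
  obtain ⟨T, hcard, hint, hsep, hcov⟩ := hk.residue
  obtain ⟨x₀, hx₀, hx₀'⟩ := hcov 0 (by simp)
  have hx₀v : Valued.v x₀ < 1 := by simpa using hx₀'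
  refine ⟨⟨ϖ, hϖ, T.image (fun x => x - x₀), ?_, ?_, ?_, ?_⟩, ?_⟩
  · exact Finset.mem_image.2 ⟨x₀, hx₀, sub_self _⟩
  · intro x hx
    obtain ⟨y, hy, rfl⟩ := Finset.mem_image.1 hx
    exact Valuation.map_sub_le _ (hint y hy) hx₀v.le
  · intro x hx y hy hxy
    obtain ⟨x', hx', rfl⟩ := Finset.mem_image.1 hx
    obtain ⟨y', hy', rfl⟩ := Finset.mem_image.1 hy
    have : x' ≠ y' := fun h => hxy (by rw [h])
    simpa using hsep x' hx' y' hy' this
  · intro z hz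
    obtain ⟨x, hx, hx'⟩ := hcov (z + x₀) (Valuation.map_add_le _ hz hx₀v.le)
    refine ⟨x - x₀, Finset.mem_image.2 ⟨x, hx, rfl⟩, ?_⟩
    have : z - (x - x₀) = z + x₀ - x := by ring
    rwa [this]
  · rw [Finset.card_image_of_injective _ (fun a b h => by simpa using h), hcard]

namespace ResData

variable (D : ResData k)

theorem ϖ_ne_zero : D.ϖ ≠ 0 := by
  intro h
  have := D.hϖ
  rw [h, map_zero] at this
  exact WithZero.exp_ne_zero this.symm

theorem val_pow (i : ℕ) : Valued.v (D.ϖ ^ i) = WithZero.exp (-(i : ℤ)) := by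
  rw [map_pow, D.hϖ, ← WithZero.exp_nsmul]
  simp

theorem val_zpow (b : ℤ) : Valued.v (D.ϖ ^ b) = WithZero.exp (-b) := by
  rw [map_zpow₀, D.hϖ, ← WithZero.exp_zsmul]
  simp

theorem val_pow_le_one (i : ℕ) : Valued.v (D.ϖ ^ i) ≤ 1 := by
  rw [D.val_pow]
  have h1 : (1 : Γ₀) = WithZero.exp (0 : ℤ) := rfl
  rw [h1, WithZero.exp_le_exp]
  omega

theorem val_ϖ_lt_one : Valued.v D.ϖ < 1 := by
  rw [lt_one_iff_le_exp, D.hϖ]

/-- An element of the residue system of valuation `< 1` is `0`. -/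
theorem eq_zero_of_mem_T {d : k} (hd : d ∈ D.T) (h : Valued.v d < 1) : d = 0 := by
  by_contra hne
  have := D.sep d hd 0 D.zero_mem hne
  rw [sub_zero] at this
  exact (ne_of_lt h) this

/-- Two elements of the residue system which are congruent are equal. -/
theorem eq_of_mem_T {d d' : k} (hd : d ∈ D.T) (hd' : d' ∈ D.T)
    (h : Valued.v (d - d') < 1) : d = d' := by
  by_contra hne
  exact (ne_of_lt h) (D.sep d hd d' hd' hne)

/-- The system of representatives of `𝒪 / ϖ^i 𝒪`: digit expansions. -/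
def R : ℕ → Finset k
  | 0 => {0}
  | (i + 1) => ((R i) ×ˢ D.T).image (fun p => p.1 + D.ϖ ^ i * p.2)

theorem mem_R_zero {r : k} : r ∈ D.R 0 ↔ r = 0 := by
  simp [R]

theorem mem_R_succ {i : ℕ} {r : k} :
    r ∈ D.R (i + 1) ↔ ∃ r' ∈ D.R i, ∃ d ∈ D.T, r = r' + D.ϖ ^ i * d := by
  simp only [R, Finset.mem_image, Finset.mem_product, Prod.exists]
  constructor
  · rintro ⟨a, b, ⟨ha, hb⟩, rfl⟩
    exact ⟨a, ha, b, hb, rfl⟩
  · rintro ⟨a, ha, b, hb, rfl⟩
    exact ⟨a, b, ⟨ha, hb⟩, rfl⟩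

theorem R_int : ∀ (i : ℕ) (r : k), r ∈ D.R i → Valued.v r ≤ 1
  | 0, r, h => by rw [D.mem_R_zero.1 h]; simp
  | (i + 1), r, h => by
    obtain ⟨r', hr', d, hd, rfl⟩ := D.mem_R_succ.1 h
    refine Valuation.map_add_le _ (R_int i r' hr') ?_
    rw [map_mul]
    exact mul_le_one' (D.val_pow_le_one i) (D.int d hd)

theorem exp_succ_le (i : ℕ) :
    WithZero.exp (-((i + 1 : ℕ) : ℤ)) ≤ (WithZero.exp (-(i : ℤ)) : Γ₀) := by
  rw [WithZero.exp_le_exp]; push_cast; omega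

theorem R_sep : ∀ (i : ℕ) (r r' : k), r ∈ D.R i → r' ∈ D.R i →
    Valued.v (r - r') ≤ WithZero.exp (-(i : ℤ)) → r = r'
  | 0, r, r', h, h', _ => by rw [D.mem_R_zero.1 h, D.mem_R_zero.1 h']
  | (i + 1), r, r', h, h', hv => by
    obtain ⟨r₁, hr₁, d, hd, rfl⟩ := D.mem_R_succ.1 h
    obtain ⟨r₂, hr₂, d', hd', rfl⟩ := D.mem_R_succ.1 h'
    have hπ : Valued.v (D.ϖ ^ i * (d - d')) ≤ WithZero.exp (-(i : ℤ)) := by
      rw [map_mul, D.val_pow]
      calc WithZero.exp (-(i : ℤ)) * Valued.v (d - d')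
          ≤ WithZero.exp (-(i : ℤ)) * 1 :=
            mul_le_mul_right (Valuation.map_sub_le _ (D.int d hd) (D.int d' hd')) _
        _ = _ := mul_one _
    have e1 : r₁ - r₂ = (r₁ + D.ϖ ^ i * d - (r₂ + D.ϖ ^ i * d')) - D.ϖ ^ i * (d - d') := by
      ring
    have h12 : r₁ = r₂ := by
      apply R_sep i r₁ r₂ hr₁ hr₂
      rw [e1]
      exact Valuation.map_sub_le _ (hv.trans (exp_succ_le i)) hπ
    subst h12
    have e2 : r₁ + D.ϖ ^ i * d - (r₁ + D.ϖ ^ i * d') = D.ϖ ^ i * (d - d') := by ring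
    rw [e2, map_mul, D.val_pow] at hv
    have hdd : Valued.v (d - d') ≤ WithZero.exp (-1 : ℤ) := by
      have h0 : (WithZero.exp (-(i : ℤ)) : Γ₀) ≠ 0 := WithZero.exp_ne_zero
      have e3 : (WithZero.exp (-((i + 1 : ℕ) : ℤ)) : Γ₀)
          = WithZero.exp (-(i : ℤ)) * WithZero.exp (-1 : ℤ) := by
        rw [← WithZero.exp_add]; congr 1; push_cast; ring
      rw [e3] at hv
      exact le_of_mul_le_mul_left hv (zero_lt_iff.2 h0)
    have : d = d' := D.eq_of_mem_T hd hd' ((lt_one_iff_le_exp _).2 hdd)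
    rw [this]

theorem R_cov : ∀ (i : ℕ) (z : k), Valued.v z ≤ 1 →
    ∃ r ∈ D.R i, Valued.v (z - r) ≤ WithZero.exp (-(i : ℤ))
  | 0, z, hz => ⟨0, D.mem_R_zero.2 rfl, by simpa using hz⟩
  | (i + 1), z, hz => by
    obtain ⟨r, hr, hv⟩ := R_cov i z hz
    have hπ0 : D.ϖ ^ i ≠ 0 := pow_ne_zero _ D.ϖ_ne_zero
    have hw : Valued.v ((z - r) / D.ϖ ^ i) ≤ 1 := by
      rw [map_div₀, D.val_pow]
      exact div_le_one_of_le₀ hv zero_le
    obtain ⟨d, hd, hdv⟩ := D.cov _ hw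
    refine ⟨r + D.ϖ ^ i * d, D.mem_R_succ.2 ⟨r, hr, d, hd, rfl⟩, ?_⟩
    have e : z - (r + D.ϖ ^ i * d) = D.ϖ ^ i * ((z - r) / D.ϖ ^ i - d) := by
      field_simp
      ring
    rw [e, map_mul, D.val_pow]
    have e3 : (WithZero.exp (-((i + 1 : ℕ) : ℤ)) : Γ₀)
        = WithZero.exp (-(i : ℤ)) * WithZero.exp (-1 : ℤ) := by
      rw [← WithZero.exp_add]; congr 1; push_cast; ring
    rw [e3]
    exact mul_le_mul_right ((lt_one_iff_le_exp _).1 hdv) _

/-- The parametrisation of `R (i+1)` by `R i × T` is injective. -/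
theorem R_injOn (i : ℕ) :
    Set.InjOn (fun p : k × k => p.1 + D.ϖ ^ i * p.2) ((D.R i) ×ˢ D.T : Finset (k × k)) := by
  rintro ⟨r, d⟩ h ⟨r', d'⟩ h' heq
  simp only [Finset.coe_product, Set.mem_prod, Finset.mem_coe] at h h'
  simp only at heq
  have hπ0 : D.ϖ ^ i ≠ 0 := pow_ne_zero _ D.ϖ_ne_zero
  have e1 : r - r' = D.ϖ ^ i * (d' - d) := by linear_combination heq
  have h12 : r = r' := by
    apply D.R_sep i r r' h.1 h'.1
    rw [e1, map_mul, D.val_pow]
    calc WithZero.exp (-(i : ℤ)) * Valued.v (d' - d)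
        ≤ WithZero.exp (-(i : ℤ)) * 1 :=
          mul_le_mul_right (Valuation.map_sub_le _ (D.int d' h'.2) (D.int d h.2)) _
      _ = _ := mul_one _
  subst h12
  have : D.ϖ ^ i * d = D.ϖ ^ i * d' := by linear_combination heq
  rw [mul_right_inj' hπ0] at this
  rw [this]

/-- Sum over `R (i+1)` as a double sum. -/
theorem sum_R_succ {M : Type} [AddCommMonoid M] (i : ℕ) (f : k → M) :
    ∑ r ∈ D.R (i + 1), f r = ∑ r ∈ D.R i, ∑ d ∈ D.T, f (r + D.ϖ ^ i * d) := by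
  rw [R, Finset.sum_image (D.R_injOn i), Finset.sum_product]

/-- The elements of `R (i+1)` of valuation `< 1` are the `ϖ r'`, `r' ∈ R i`. -/
theorem mem_R_succ_small : ∀ (i : ℕ) (r : k),
    (r ∈ D.R (i + 1) ∧ Valued.v r < 1) ↔ ∃ r' ∈ D.R i, r = D.ϖ * r'
  | 0, r => by
    constructor
    · rintro ⟨h, hv⟩
      obtain ⟨r', hr', d, hd, rfl⟩ := D.mem_R_succ.1 h
      rw [D.mem_R_zero.1 hr'] at hv ⊢
      simp only [pow_zero, one_mul, zero_add] at hv ⊢
      exact ⟨0, D.mem_R_zero.2 rfl, by rw [D.eq_zero_of_mem_T hd hv]; simp⟩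
    · rintro ⟨r', hr', rfl⟩
      rw [D.mem_R_zero.1 hr']
      refine ⟨D.mem_R_succ.2 ⟨0, D.mem_R_zero.2 rfl, 0, D.zero_mem, by simp⟩, by simp⟩
  | (i + 1), r => by
    constructor
    · rintro ⟨h, hv⟩
      obtain ⟨r₁, hr₁, d, hd, rfl⟩ := D.mem_R_succ.1 h
      have hπd : Valued.v (D.ϖ ^ (i + 1) * d) < 1 := by
        rw [map_mul, pow_succ, map_mul]
        calc Valued.v (D.ϖ ^ i) * Valued.v D.ϖ * Valued.v d
            ≤ 1 * Valued.v D.ϖ * 1 := by
              gcongr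
              · exact D.val_pow_le_one i
              · exact D.int d hd
          _ = Valued.v D.ϖ := by simp
          _ < 1 := D.val_ϖ_lt_one
      have hr₁v : Valued.v r₁ < 1 := by
        have e : r₁ = (r₁ + D.ϖ ^ (i + 1) * d) - D.ϖ ^ (i + 1) * d := by ring
        rw [e]
        exact lt_of_le_of_lt (Valuation.map_sub _ _ _) (max_lt hv hπd)
      obtain ⟨r₁', hr₁', rfl⟩ := (mem_R_succ_small i r₁).1 ⟨hr₁, hr₁v⟩
      exact ⟨r₁' + D.ϖ ^ i * d, D.mem_R_succ.2 ⟨r₁', hr₁', d, hd, rfl⟩, by ring⟩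
    · rintro ⟨r', hr', rfl⟩
      obtain ⟨r₁', hr₁', d, hd, rfl⟩ := D.mem_R_succ.1 hr'
      have h1 := ((mem_R_succ_small i (D.ϖ * r₁')).2 ⟨r₁', hr₁', rfl⟩).1
      refine ⟨D.mem_R_succ.2 ⟨D.ϖ * r₁', h1, d, hd, by ring⟩, ?_⟩
      rw [map_mul]
      calc Valued.v D.ϖ * Valued.v (r₁' + D.ϖ ^ i * d)
          ≤ Valued.v D.ϖ * 1 := mul_le_mul_right (D.R_int _ _ hr') _
        _ = Valued.v D.ϖ := mul_one _
        _ < 1 := D.val_ϖ_lt_one

/-- Sum over the elements of `R (i+1)` of valuation `< 1`. -/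
theorem sum_R_succ_small {M : Type} [AddCommMonoid M] (i : ℕ) (f : k → M) :
    ∑ r ∈ (D.R (i + 1)).filter (fun r => Valued.v r < 1), f r
      = ∑ r' ∈ D.R i, f (D.ϖ * r') := by
  classical
  have h : (D.R (i + 1)).filter (fun r => Valued.v r < 1)
      = (D.R i).image (fun r' => D.ϖ * r') := by
    ext r
    rw [Finset.mem_filter, D.mem_R_succ_small i r, Finset.mem_image]
    constructor
    · rintro ⟨r', hr', rfl⟩; exact ⟨r', hr', rfl⟩
    · rintro ⟨r', hr', rfl⟩; exact ⟨r', hr', rfl⟩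
  rw [h, Finset.sum_image]
  intro a _ b _ hab
  exact mul_left_cancel₀ D.ϖ_ne_zero hab

end ResData

end Fermat.Agent.LT.T6.H305

end
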