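import Fermat.Agent.LT.T6.H305.Mat

/-!
# Row LT, tower T6, leaf T6.10 `SatakeEigenC` (helper305) -- part 4: Hermite normal form

OFF-MAIN.  Every integral `g ∈ GL₂(k)` is `um i j r · κ⁻¹` with `κ ∈ GL₂(𝒪)`, `r ∈ R i`
(existence), and the `um i j r` with `i + j` fixed are pairwise inequivalent modulo `GL₂(𝒪)`.
-/

set_option autoImplicit false
set_option linter.unusedSectionVars false
set_option linter.unusedSimpArgs false
set_option linter.unnecessarySeqFocus false

open scoped Matrix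
open scoped Classical

noncomputable section

namespace Fermat.Agent.LT.T6.H305

open Fermat.Agent.LT.T6

variable {k : Type} [Field k] [Valued k Γ₀]

theorem exists_nat_val {x : k} (hx : x ≠ 0) (hi : Valued.v x ≤ 1) :
    ∃ n : ℕ, Valued.v x = WithZero.exp (-(n : ℤ)) := by
  have h0 : Valued.v x ≠ 0 := by simpa using hx
  have h1 : (1 : Γ₀) = WithZero.exp (0 : ℤ) := rfl
  have hlog : WithZero.log (Valued.v x) ≤ 0 := by
    rw [WithZero.log_le_iff_le_exp h0, ← h1]; exact hi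
  refine ⟨(-WithZero.log (Valued.v x)).toNat, ?_⟩
  rw [Int.toNat_of_nonneg (by omega), neg_neg, WithZero.exp_log h0]

theorem exists_lower_zero (g : GL (Fin 2) k) :
    ∃ κ : GL (Fin 2) k, InK κ ∧
      ((g * κ : GL (Fin 2) k) : Matrix (Fin 2) (Fin 2) k) 1 0 = 0 := by
  have hcd : (g : Matrix (Fin 2) (Fin 2) k) 1 0 ≠ 0 ∨ (g : Matrix (Fin 2) (Fin 2) k) 1 1 ≠ 0 := by
    by_contra h
    rw [not_or, not_not, not_not] at h
    apply det_ne_zero g
    rw [Matrix.det_fin_two]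
    simp [h.1, h.2]
  by_cases h : Valued.v ((g : Matrix (Fin 2) (Fin 2) k) 1 0)
      ≤ Valued.v ((g : Matrix (Fin 2) (Fin 2) k) 1 1)
  · have hd0 : (g : Matrix (Fin 2) (Fin 2) k) 1 1 ≠ 0 := by
      rcases hcd with h' | h'
      · intro hd0
        rw [hd0, map_zero] at h
        exact h' (by simpa using h)
      · exact h'
    have hv0 : (0 : Γ₀) < Valued.v ((g : Matrix (Fin 2) (Fin 2) k) 1 1) := by
      rw [zero_lt_iff]; simpa using hd0
    refine ⟨mk2 1 0 (-(g : Matrix (Fin 2) (Fin 2) k) 1 0 / (g : Matrix (Fin 2) (Fin 2) k) 1 1) 1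
      (by simp), ?_, ?_⟩
    · rw [inK_iff]
      refine ⟨fun i j => ?_, ?_⟩
      · fin_cases i <;> fin_cases j
        · show Valued.v (1 : k) ≤ 1
          simp
        · show Valued.v (0 : k) ≤ 1
          simp
        · show Valued.v (-(g : Matrix (Fin 2) (Fin 2) k) 1 0
            / (g : Matrix (Fin 2) (Fin 2) k) 1 1) ≤ 1
          rw [map_div₀, Valuation.map_neg]
          exact (div_le_one₀ hv0).2 h
        · show Valued.v (1 : k) ≤ 1
          simp
      · simp [Matrix.det_fin_two_of]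
    · rw [Units.val_mul, mk2_val, Matrix.mul_apply, Fin.sum_univ_two]
      simp only [Matrix.of_apply, Matrix.cons_val', Matrix.cons_val_zero, Matrix.cons_val_one,
        Matrix.cons_val_fin_one]
      field_simp
      ring
  · rw [not_le] at h
    have hc0 : (g : Matrix (Fin 2) (Fin 2) k) 1 0 ≠ 0 := by
      intro h0
      rw [h0, map_zero] at h
      exact not_lt_zero h
    have hv0 : (0 : Γ₀) < Valued.v ((g : Matrix (Fin 2) (Fin 2) k) 1 0) := by
      rw [zero_lt_iff]; simpa using hc0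
    refine ⟨mk2 (-(g : Matrix (Fin 2) (Fin 2) k) 1 1 / (g : Matrix (Fin 2) (Fin 2) k) 1 0) 1 1 0
      (by simp), ?_, ?_⟩
    · rw [inK_iff]
      refine ⟨fun i j => ?_, ?_⟩
      · fin_cases i <;> fin_cases j
        · show Valued.v (-(g : Matrix (Fin 2) (Fin 2) k) 1 1
            / (g : Matrix (Fin 2) (Fin 2) k) 1 0) ≤ 1
          rw [map_div₀, Valuation.map_neg]
          exact (div_le_one₀ hv0).2 h.le
        · show Valued.v (1 : k) ≤ 1
          simp
        · show Valued.v (1 : k) ≤ 1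
          simp
        · show Valued.v (0 : k) ≤ 1
          simp
      · simp [Matrix.det_fin_two_of]
    · rw [Units.val_mul, mk2_val, Matrix.mul_apply, Fin.sum_univ_two]
      simp only [Matrix.of_apply, Matrix.cons_val', Matrix.cons_val_zero, Matrix.cons_val_one,
        Matrix.cons_val_fin_one]
      field_simp
      ring

namespace ResData

variable (D : ResData k)

/-- Hermite normal form of an upper triangular integral matrix. -/
theorem hnf_upper (g : GL (Fin 2) k)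
    (hint : ∀ i j, Valued.v ((g : Matrix (Fin 2) (Fin 2) k) i j) ≤ 1)
    (h10 : (g : Matrix (Fin 2) (Fin 2) k) 1 0 = 0) :
    ∃ (i j : ℕ) (r : k), r ∈ D.R i ∧ ∃ κ : GL (Fin 2) k, InK κ ∧ g * κ = D.um i j r := by
  have hdet := det_ne_zero g
  rw [Matrix.det_fin_two, h10, mul_zero, sub_zero] at hdet
  have ha0 : (g : Matrix (Fin 2) (Fin 2) k) 0 0 ≠ 0 := left_ne_zero_of_mul hdet
  have hd0 : (g : Matrix (Fin 2) (Fin 2) k) 1 1 ≠ 0 := right_ne_zero_of_mul hdet
  obtain ⟨i, hi⟩ := exists_nat_val ha0 (hint 0 0)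
  obtain ⟨j, hj⟩ := exists_nat_val hd0 (hint 1 1)
  have hπi : D.ϖ ^ i ≠ 0 := pow_ne_zero _ D.ϖ_ne_zero
  have hπj : D.ϖ ^ j ≠ 0 := pow_ne_zero _ D.ϖ_ne_zero
  have hx : Valued.v (D.ϖ ^ i / (g : Matrix (Fin 2) (Fin 2) k) 0 0) = 1 := by
    rw [map_div₀, D.val_pow, hi]
    exact div_self WithZero.exp_ne_zero
  have hw : Valued.v (D.ϖ ^ j / (g : Matrix (Fin 2) (Fin 2) k) 1 1) = 1 := by
    rw [map_div₀, D.val_pow, hj]
    exact div_self WithZero.exp_ne_zero
  have hbw : Valued.v ((g : Matrix (Fin 2) (Fin 2) k) 0 1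
      * (D.ϖ ^ j / (g : Matrix (Fin 2) (Fin 2) k) 1 1)) ≤ 1 := by
    rw [map_mul, hw, mul_one]
    exact hint 0 1
  obtain ⟨r, hr, hrv⟩ := D.R_cov i _ hbw
  have hy : Valued.v ((r - (g : Matrix (Fin 2) (Fin 2) k) 0 1
      * (D.ϖ ^ j / (g : Matrix (Fin 2) (Fin 2) k) 1 1)) / (g : Matrix (Fin 2) (Fin 2) k) 0 0)
      ≤ 1 := by
    rw [map_div₀, hi, Valuation.map_sub_swap]
    exact (div_le_one₀ (zero_lt_iff.2 WithZero.exp_ne_zero)).2 hrv
  have hxw : D.ϖ ^ i / (g : Matrix (Fin 2) (Fin 2) k) 0 0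
      * (D.ϖ ^ j / (g : Matrix (Fin 2) (Fin 2) k) 1 1)
      - (r - (g : Matrix (Fin 2) (Fin 2) k) 0 1
      * (D.ϖ ^ j / (g : Matrix (Fin 2) (Fin 2) k) 1 1)) / (g : Matrix (Fin 2) (Fin 2) k) 0 0 * 0
      ≠ 0 := by
    rw [mul_zero, sub_zero]
    exact mul_ne_zero (div_ne_zero hπi ha0) (div_ne_zero hπj hd0)
  refine ⟨i, j, r, hr, mk2 _ _ 0 _ hxw, ?_, ?_⟩
  · rw [inK_iff]
    refine ⟨fun a b => ?_, ?_⟩
    · fin_cases a <;> fin_cases b
      · exact hx.le
      · exact hy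
      · show Valued.v (0 : k) ≤ 1
        simp
      · exact hw.le
    · rw [mk2_val, Matrix.det_fin_two_of, mul_zero, sub_zero, map_mul, hx, hw, mul_one]
  · apply Units.ext
    rw [Units.val_mul, mk2_val, um_val]
    ext a b
    fin_cases a <;> fin_cases b
    all_goals
      simp only [Matrix.mul_apply, Fin.sum_univ_two, Matrix.of_apply, Matrix.cons_val',
        Matrix.cons_val_zero, Matrix.cons_val_one, Matrix.cons_val_fin_one, Fin.zero_eta,
        Fin.mk_one, h10, mul_zero, add_zero, zero_mul, zero_add]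
      try field_simp
      try ring

/-- Hermite normal form of an integral matrix. -/
theorem hnf (g : GL (Fin 2) k)
    (hint : ∀ i j, Valued.v ((g : Matrix (Fin 2) (Fin 2) k) i j) ≤ 1) :
    ∃ (i j : ℕ) (r : k), r ∈ D.R i ∧ ∃ κ : GL (Fin 2) k, InK κ ∧ g * κ = D.um i j r := by
  obtain ⟨κ₁, hκ₁, h10⟩ := exists_lower_zero g
  have hint' : ∀ i j, Valued.v (((g * κ₁ : GL (Fin 2) k) : Matrix (Fin 2) (Fin 2) k) i j) ≤ 1 := by
    intro i j
    rw [Units.val_mul]
    exact val_mul_apply_le hint hκ₁.1 i j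
  obtain ⟨i, j, r, hr, κ₂, hκ₂, h⟩ := D.hnf_upper (g * κ₁) hint' h10
  exact ⟨i, j, r, hr, κ₁ * κ₂, inK_mul hκ₁ hκ₂, by rw [← mul_assoc, h]⟩

/-- Every `g` of Cartan type `(n, 0)` is equivalent to a primitive `um i j r`, `i + j = n`. -/
theorem cover (g : GL (Fin 2) k) (n : ℕ) (hg : cartan g = ((n : ℤ), 0)) :
    ∃ (i j : ℕ) (r : k), i + j = n ∧ r ∈ D.R i ∧ Prim i j r ∧ InK ((D.um i j r)⁻¹ * g) := by
  obtain ⟨hmax, hdet⟩ := (cartan_eq_nat_iff g n).1 hg
  have hint : ∀ i j, Valued.v ((g : Matrix (Fin 2) (Fin 2) k) i j) ≤ 1 :=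
    (entryMax_le_iff g 1).1 hmax.le
  obtain ⟨i, j, r, hr, κ, hκ, h⟩ := D.hnf g hint
  have h1 : i + j = n := by
    have := D.val_det_um i j r
    rw [← h, val_det_mul g κ hκ, hdet, WithZero.exp_inj] at this
    omega
  have h2 : Prim i j r := by
    rw [← D.entryMax_um_eq_one_iff i j r (D.R_int i r hr), ← h, entryMax_mul g κ hκ, hmax]
  refine ⟨i, j, r, h1, hr, h2, ?_⟩
  have : (D.um i j r)⁻¹ * g = κ⁻¹ := by
    rw [← h]
    group
  rw [this]
  exact inK_inv hκ

/-- The `um i j r` with `i + j` fixed, `r ∈ R i`, are pairwise inequivalent. -/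
theorem um_inj {i j i' j' : ℕ} {r r' : k} (hsum : i + j = i' + j') (hr : r ∈ D.R i)
    (hr' : r' ∈ D.R i') (h : InK ((D.um i j r)⁻¹ * D.um i' j' r')) :
    i = i' ∧ j = j' ∧ r = r' := by
  obtain ⟨κ, hκ⟩ : ∃ κ, κ = (D.um i j r)⁻¹ * D.um i' j' r' := ⟨_, rfl⟩
  rw [← hκ] at h
  have e : D.um i j r * κ = D.um i' j' r' := by
    rw [hκ]
    group
  have e' := congrArg (fun u : GL (Fin 2) k => (u : Matrix (Fin 2) (Fin 2) k)) e
  simp only [Units.val_mul, um_val] at e'
  have e00 := congrFun (congrFun e' 0) 0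
  have e01 := congrFun (congrFun e' 0) 1
  have e10 := congrFun (congrFun e' 1) 0
  have e11 := congrFun (congrFun e' 1) 1
  simp only [Matrix.mul_apply, Fin.sum_univ_two, Matrix.of_apply, Matrix.cons_val',
    Matrix.cons_val_zero, Matrix.cons_val_one, Matrix.cons_val_fin_one, zero_mul, zero_add]
    at e00 e01 e10 e11
  have hπj : D.ϖ ^ j ≠ 0 := pow_ne_zero _ D.ϖ_ne_zero
  have hπi : D.ϖ ^ i ≠ 0 := pow_ne_zero _ D.ϖ_ne_zero
  have k10 : (κ : Matrix (Fin 2) (Fin 2) k) 1 0 = 0 := by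
    rcases mul_eq_zero.1 e10 with h' | h'
    · exact absurd h' hπj
    · exact h'
  rw [k10, mul_zero, add_zero] at e00
  have hj : j ≤ j' := by
    have := congrArg Valued.v e11
    rw [map_mul, D.val_pow, D.val_pow] at this
    have h2 : (WithZero.exp (-(j' : ℤ)) : Γ₀) ≤ WithZero.exp (-(j : ℤ)) := by
      rw [← this]
      calc WithZero.exp (-(j : ℤ)) * Valued.v ((κ : Matrix (Fin 2) (Fin 2) k) 1 1)
          ≤ WithZero.exp (-(j : ℤ)) * 1 := mul_le_mul_right (h.1 1 1) _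
        _ = _ := mul_one _
    rw [WithZero.exp_le_exp] at h2
    omega
  have hi : i ≤ i' := by
    have := congrArg Valued.v e00
    rw [map_mul, D.val_pow, D.val_pow] at this
    have h2 : (WithZero.exp (-(i' : ℤ)) : Γ₀) ≤ WithZero.exp (-(i : ℤ)) := by
      rw [← this]
      calc WithZero.exp (-(i : ℤ)) * Valued.v ((κ : Matrix (Fin 2) (Fin 2) k) 0 0)
          ≤ WithZero.exp (-(i : ℤ)) * 1 := mul_le_mul_right (h.1 0 0) _
        _ = _ := mul_one _
    rw [WithZero.exp_le_exp] at h2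
    omega
  have hii : i = i' := by omega
  have hjj : j = j' := by omega
  subst hii
  subst hjj
  refine ⟨rfl, rfl, ?_⟩
  have k11 : (κ : Matrix (Fin 2) (Fin 2) k) 1 1 = 1 := by
    have : D.ϖ ^ j * (κ : Matrix (Fin 2) (Fin 2) k) 1 1 = D.ϖ ^ j * 1 := by rw [e11, mul_one]
    exact mul_left_cancel₀ hπj this
  rw [k11, mul_one] at e01
  symm
  apply D.R_sep i r' r hr' hr
  have : r' - r = D.ϖ ^ i * (κ : Matrix (Fin 2) (Fin 2) k) 0 1 := by rw [← e01]; ring
  rw [this, map_mul, D.val_pow]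
  calc WithZero.exp (-(i : ℤ)) * Valued.v ((κ : Matrix (Fin 2) (Fin 2) k) 0 1)
      ≤ WithZero.exp (-(i : ℤ)) * 1 := mul_le_mul_right (h.1 0 1) _
    _ = _ := mul_one _

end ResData

end Fermat.Agent.LT.T6.H305

end
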