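import Fermat.Agent.LT.T6.H305.Digits

/-!
# Row LT, tower T6, leaf T6.10 `SatakeEigenC` (helper305) -- part 3: matrices and Cartan invariant

OFF-MAIN.  The matrices `um i j r = [[ϖ^i, r], [0, ϖ^j]]`, the scalars `sc b = ϖ^b`, the
unipotents `nm c`; the Cartan invariant of `um` and its behaviour under `GL₂(𝒪)` and scalars.
-/

set_option autoImplicit false
set_option linter.unusedSectionVars false

open scoped Matrix
open scoped Classical

noncomputable section

namespace Fermat.Agent.LT.T6.H305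

open Fermat.Agent.LT.T6

variable {k : Type} [Field k] [Valued k Γ₀]

/-- `[[1, c], [0, 1]]`. -/
def nm (c : k) : GL (Fin 2) k := mk2 1 c 0 1 (by simp)

theorem inK_nm {c : k} (hc : Valued.v c ≤ 1) : InK (nm c) := by
  rw [inK_iff]
  refine ⟨fun i j => ?_, ?_⟩
  · fin_cases i <;> fin_cases j <;> simp [nm, hc]
  · simp [nm, Matrix.det_fin_two_of]

theorem le_entryMax (g : GL (Fin 2) k) (i j : Fin 2) :
    Valued.v ((g : Matrix (Fin 2) (Fin 2) k) i j) ≤ entryMax g :=
  Finset.le_sup' (fun p : Fin 2 × Fin 2 => Valued.v ((g : Matrix (Fin 2) (Fin 2) k) p.1 p.2))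
    (Finset.mem_univ (i, j))

theorem entryMax_le_iff (g : GL (Fin 2) k) (c : Γ₀) :
    entryMax g ≤ c ↔ ∀ i j, Valued.v ((g : Matrix (Fin 2) (Fin 2) k) i j) ≤ c := by
  unfold entryMax
  rw [Finset.sup'_le_iff]
  constructor
  · intro h i j; exact h (i, j) (Finset.mem_univ _)
  · intro h p _; exact h p.1 p.2

theorem exists_entryMax (g : GL (Fin 2) k) :
    ∃ i j, entryMax g = Valued.v ((g : Matrix (Fin 2) (Fin 2) k) i j) := by
  obtain ⟨p, _, hp⟩ := Finset.exists_mem_eq_sup' Finset.univ_nonempty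
    (fun p : Fin 2 × Fin 2 => Valued.v ((g : Matrix (Fin 2) (Fin 2) k) p.1 p.2))
  exact ⟨p.1, p.2, hp⟩

theorem entryMax_ne_zero (g : GL (Fin 2) k) : entryMax g ≠ 0 := by
  intro h
  have h0 : ∀ i j, (g : Matrix (Fin 2) (Fin 2) k) i j = 0 := by
    intro i j
    have := le_entryMax g i j
    rw [h] at this
    simpa using this
  apply det_ne_zero g
  rw [Matrix.det_fin_two]
  simp [h0]

theorem val_det_ne_zero (g : GL (Fin 2) k) :
    Valued.v (g : Matrix (Fin 2) (Fin 2) k).det ≠ 0 := by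
  simpa using det_ne_zero g

theorem entryMax_mul_le (g κ : GL (Fin 2) k) (hκ : InK κ) : entryMax (g * κ) ≤ entryMax g := by
  rw [entryMax_le_iff]
  intro i j
  rw [Units.val_mul, Matrix.mul_apply]
  refine Valuation.map_sum_le _ (fun l _ => ?_)
  rw [map_mul]
  calc Valued.v ((g : Matrix (Fin 2) (Fin 2) k) i l) * Valued.v ((κ : Matrix (Fin 2) (Fin 2) k) l j)
      ≤ entryMax g * 1 := mul_le_mul' (le_entryMax g i l) (hκ.1 l j)
    _ = entryMax g := mul_one _

theorem entryMax_mul (g κ : GL (Fin 2) k) (hκ : InK κ) : entryMax (g * κ) = entryMax g := by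
  refine le_antisymm (entryMax_mul_le g κ hκ) ?_
  have := entryMax_mul_le (g * κ) κ⁻¹ (inK_inv hκ)
  simpa using this

theorem val_det_mul (g κ : GL (Fin 2) k) (hκ : InK κ) :
    Valued.v ((g * κ : GL (Fin 2) k) : Matrix (Fin 2) (Fin 2) k).det
      = Valued.v (g : Matrix (Fin 2) (Fin 2) k).det := by
  rw [Units.val_mul, Matrix.det_mul, map_mul, ((inK_iff κ).1 hκ).2, mul_one]

theorem cartan_eq_nat_iff (g : GL (Fin 2) k) (n : ℕ) :
    cartan g = ((n : ℤ), 0) ↔
      entryMax g = 1 ∧ Valued.v (g : Matrix (Fin 2) (Fin 2) k).det = WithZero.exp (-(n : ℤ)) := by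
  unfold cartan
  rw [Prod.mk.injEq]
  constructor
  · rintro ⟨h1, h2⟩
    have hm : WithZero.log (entryMax g) = 0 := by omega
    have hm' : entryMax g = 1 := by
      rw [← WithZero.exp_log (entryMax_ne_zero g), hm]; rfl
    refine ⟨hm', ?_⟩
    rw [← WithZero.exp_log (val_det_ne_zero g)]
    congr 1
    omega
  · rintro ⟨h1, h2⟩
    rw [h1, h2]
    simp

/-- The matrix `um i j r` is primitive (some entry is a unit). -/
def Prim (i j : ℕ) (r : k) : Prop := i = 0 ∨ j = 0 ∨ Valued.v r = 1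

namespace ResData

variable (D : ResData k)

/-- `[[ϖ^i, r], [0, ϖ^j]]`. -/
def um (i j : ℕ) (r : k) : GL (Fin 2) k :=
  mk2 (D.ϖ ^ i) r 0 (D.ϖ ^ j) (by simp [D.ϖ_ne_zero])

/-- The scalar matrix `ϖ^b`. -/
def sc (b : ℤ) : GL (Fin 2) k :=
  mk2 (D.ϖ ^ b) 0 0 (D.ϖ ^ b) (by simp [D.ϖ_ne_zero, zpow_ne_zero])

@[simp] theorem um_val (i j : ℕ) (r : k) :
    ((D.um i j r : GL (Fin 2) k) : Matrix (Fin 2) (Fin 2) k) = !![D.ϖ ^ i, r; 0, D.ϖ ^ j] := rfl

@[simp] theorem sc_val (b : ℤ) :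
    ((D.sc b : GL (Fin 2) k) : Matrix (Fin 2) (Fin 2) k) = !![D.ϖ ^ b, 0; 0, D.ϖ ^ b] := rfl

theorem um_zero : D.um 0 0 0 = 1 := by
  apply Units.ext
  simp [Matrix.one_fin_two]

theorem sc_zero : D.sc 0 = 1 := by
  apply Units.ext
  simp [Matrix.one_fin_two]

theorem sc_add (b c : ℤ) : D.sc (b + c) = D.sc b * D.sc c := by
  apply Units.ext
  simp [Matrix.mul_fin_two, zpow_add₀ D.ϖ_ne_zero]

theorem sc_comm (b : ℤ) (g : GL (Fin 2) k) : D.sc b * g = g * D.sc b := by
  apply Units.ext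
  rw [Units.val_mul, Units.val_mul]
  ext a b
  fin_cases a <;> fin_cases b <;> simp [Matrix.mul_apply, Fin.sum_univ_two, mul_comm]

theorem sc_inv (b : ℤ) : (D.sc b)⁻¹ = D.sc (-b) := by
  rw [inv_eq_iff_mul_eq_one, ← sc_add]
  simp [sc_zero]

theorem um_mul_um_one (i j : ℕ) (r d : k) :
    D.um i j r * D.um 1 0 d = D.um (i + 1) j (r + D.ϖ ^ i * d) := by
  apply Units.ext
  simp [Matrix.mul_fin_two, pow_succ, add_comm]

theorem um_zero_mul (j : ℕ) : D.um 0 j 0 * D.um 0 1 0 = D.um 0 (j + 1) 0 := by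
  apply Units.ext
  simp [Matrix.mul_fin_two, pow_succ]

theorem um_succ_mul (i j : ℕ) (r d : k) :
    D.um (i + 1) j (r + D.ϖ ^ i * d) * D.um 0 1 0 = D.um i j r * D.sc 1 * nm d := by
  apply Units.ext
  simp only [Units.val_mul, um_val, sc_val, nm, mk2_val, Matrix.mul_fin_two]
  ext a b
  fin_cases a <;> fin_cases b <;> simp [pow_succ] <;> ring

theorem um_succ_succ (i j : ℕ) (r : k) :
    D.um (i + 1) (j + 1) (D.ϖ * r) = D.um i j r * D.sc 1 := by
  apply Units.ext
  simp only [Units.val_mul, um_val, sc_val, Matrix.mul_fin_two]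
  ext a b
  fin_cases a <;> fin_cases b <;> simp [pow_succ] <;> ring

theorem val_det_um (i j : ℕ) (r : k) :
    Valued.v (D.um i j r : Matrix (Fin 2) (Fin 2) k).det = WithZero.exp (-((i + j : ℕ) : ℤ)) := by
  rw [um_val, Matrix.det_fin_two_of, mul_zero, sub_zero, ← pow_add, D.val_pow]

theorem entryMax_um_le (i j : ℕ) (r : k) (hr : Valued.v r ≤ 1) : entryMax (D.um i j r) ≤ 1 := by
  rw [entryMax_le_iff]
  intro a b
  fin_cases a <;> fin_cases b
  · exact D.val_pow_le_one i
  · exact hr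
  · show Valued.v (0 : k) ≤ 1
    simp
  · exact D.val_pow_le_one j

theorem entryMax_um_eq_one_iff (i j : ℕ) (r : k) (hr : Valued.v r ≤ 1) :
    entryMax (D.um i j r) = 1 ↔ Prim i j r := by
  constructor
  · intro h
    obtain ⟨a, b, hab⟩ := exists_entryMax (D.um i j r)
    rw [h] at hab
    have h1 : (1 : Γ₀) = WithZero.exp (0 : ℤ) := rfl
    fin_cases a <;> fin_cases b
    · left
      change (1 : Γ₀) = Valued.v (D.ϖ ^ i) at hab
      rw [D.val_pow, h1, WithZero.exp_inj] at hab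
      omega
    · right; right
      exact hab.symm
    · exfalso
      change (1 : Γ₀) = Valued.v (0 : k) at hab
      simp at hab
    · right; left
      change (1 : Γ₀) = Valued.v (D.ϖ ^ j) at hab
      rw [D.val_pow, h1, WithZero.exp_inj] at hab
      omega
  · intro h
    refine le_antisymm (D.entryMax_um_le i j r hr) ?_
    rcases h with h | h | h
    · subst h
      have := le_entryMax (D.um 0 j r) 0 0
      simpa using this
    · subst h
      have := le_entryMax (D.um i 0 r) 1 1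
      simpa using this
    · have := le_entryMax (D.um i j r) 0 1
      simpa [h] using this

theorem cartan_um (i j : ℕ) (r : k) (hr : Valued.v r ≤ 1) (hp : Prim i j r) :
    cartan (D.um i j r) = (((i + j : ℕ) : ℤ), 0) := by
  rw [cartan_eq_nat_iff]
  exact ⟨(D.entryMax_um_eq_one_iff i j r hr).2 hp, D.val_det_um i j r⟩

theorem entryMax_sc_mul (b : ℤ) (g : GL (Fin 2) k) :
    entryMax (D.sc b * g) = WithZero.exp (-b) * entryMax g := by
  have hent : ∀ i j, ((D.sc b * g : GL (Fin 2) k) : Matrix (Fin 2) (Fin 2) k) i j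
      = D.ϖ ^ b * (g : Matrix (Fin 2) (Fin 2) k) i j := by
    intro i j
    rw [Units.val_mul, sc_val, Matrix.mul_apply, Fin.sum_univ_two]
    fin_cases i <;> simp
  apply le_antisymm
  · rw [entryMax_le_iff]
    intro i j
    rw [hent, map_mul, D.val_zpow]
    exact mul_le_mul_right (le_entryMax g i j) _
  · obtain ⟨i, j, hij⟩ := exists_entryMax g
    rw [hij, ← D.val_zpow, ← map_mul, ← hent]
    exact le_entryMax _ i j

theorem cartan_sc_mul (b : ℤ) (g : GL (Fin 2) k) :
    cartan (D.sc b * g) = ((cartan g).1 + b, (cartan g).2 + b) := by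
  unfold cartan
  have hdet : Valued.v ((D.sc b * g : GL (Fin 2) k) : Matrix (Fin 2) (Fin 2) k).det
      = WithZero.exp (-(2 * b)) * Valued.v (g : Matrix (Fin 2) (Fin 2) k).det := by
    rw [Units.val_mul, Matrix.det_mul, map_mul, sc_val, Matrix.det_fin_two_of, mul_zero, sub_zero,
      ← zpow_add₀ D.ϖ_ne_zero, D.val_zpow]
    congr 2
    ring
  rw [hdet, D.entryMax_sc_mul, WithZero.log_mul WithZero.exp_ne_zero (entryMax_ne_zero g),
    WithZero.log_mul WithZero.exp_ne_zero (val_det_ne_zero g), WithZero.log_exp, WithZero.log_exp]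
  simp only [Prod.mk.injEq]
  constructor <;> ring

end ResData

end Fermat.Agent.LT.T6.H305

end
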