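import Fermat.Agent.LT.T6.H305.Sys

/-!
# Row LT, tower T6, leaf T6.10 `SatakeEigenC` (helper305) -- part 6: the Hecke recursion

OFF-MAIN.  `Aall n` = sum over ALL Hermite forms `[[ϖ^i, r], [0, ϖ^j]]`, `i + j = n` (the classical
`T(𝔭ⁿ)`), `Pprim n` = sum over the primitive ones (`1_{K diag(ϖⁿ,1) K}`).  For a right
`GL₂(𝒪)`-invariant eigenfunction of `T` and `S`:
`t · Aall (n+1) = Aall (n+2) + q s · Aall n`, `Aall (n+2) = Pprim (n+2) + s · Aall n`.
-/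

set_option autoImplicit false
set_option linter.unusedSectionVars false
set_option linter.unusedSimpArgs false
set_option linter.unnecessarySeqFocus false

open scoped Matrix
open scoped Classical

noncomputable section

namespace Fermat.Agent.LT.T6.H305

open Fermat.Agent.LT.T6

variable {k : Type} [Field k] [Valued k Γ₀]

theorem sum_ad_succ (f : ℕ → ℕ → ℂ) (n : ℕ) :
    ∑ p ∈ Finset.HasAntidiagonal.antidiagonal (n + 1), f p.1 p.2
      = f 0 (n + 1) + ∑ p ∈ Finset.HasAntidiagonal.antidiagonal n, f (p.1 + 1) p.2 :=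
  Finset.Nat.sum_antidiagonal_succ (f := fun p => f p.1 p.2)

theorem sum_ad_succ' (f : ℕ → ℕ → ℂ) (n : ℕ) :
    ∑ p ∈ Finset.HasAntidiagonal.antidiagonal (n + 1), f p.1 p.2
      = f (n + 1) 0 + ∑ p ∈ Finset.HasAntidiagonal.antidiagonal n, f p.1 (p.2 + 1) :=
  Finset.Nat.sum_antidiagonal_succ' (f := fun p => f p.1 p.2)

namespace ResData

variable (D : ResData k)

theorem R_zero : D.R 0 = {0} := rfl

/-- The inner sum over all `r ∈ R i`. -/
def Fall (Φ : GL (Fin 2) k → ℂ) (g : GL (Fin 2) k) (i j : ℕ) : ℂ :=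
  ∑ r ∈ D.R i, Φ (g * D.um i j r)

/-- The inner sum over the primitive `r ∈ R i`. -/
def Fprim (Φ : GL (Fin 2) k → ℂ) (g : GL (Fin 2) k) (i j : ℕ) : ℂ :=
  ∑ r ∈ (D.R i).filter (fun r => Prim i j r), Φ (g * D.um i j r)

/-- The inner sum over the non-primitive `r ∈ R i`. -/
def Fnon (Φ : GL (Fin 2) k → ℂ) (g : GL (Fin 2) k) (i j : ℕ) : ℂ :=
  ∑ r ∈ (D.R i).filter (fun r => ¬ Prim i j r), Φ (g * D.um i j r)

/-- Sum over all Hermite forms of determinant `ϖⁿ`. -/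
def Aall (Φ : GL (Fin 2) k → ℂ) (n : ℕ) (g : GL (Fin 2) k) : ℂ :=
  ∑ p ∈ Finset.HasAntidiagonal.antidiagonal n, D.Fall Φ g p.1 p.2

/-- Sum over the primitive Hermite forms of determinant `ϖⁿ`. -/
def Pprim (Φ : GL (Fin 2) k → ℂ) (n : ℕ) (g : GL (Fin 2) k) : ℂ :=
  ∑ p ∈ Finset.HasAntidiagonal.antidiagonal n, D.Fprim Φ g p.1 p.2

theorem Fall_eq (Φ : GL (Fin 2) k → ℂ) (g : GL (Fin 2) k) (i j : ℕ) :
    D.Fall Φ g i j = D.Fprim Φ g i j + D.Fnon Φ g i j := by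
  unfold Fall Fprim Fnon
  rw [Finset.sum_filter_add_sum_filter_not]

theorem Fnon_zero_left (Φ : GL (Fin 2) k → ℂ) (g : GL (Fin 2) k) (j : ℕ) :
    D.Fnon Φ g 0 j = 0 := by
  unfold Fnon
  rw [Finset.filter_false_of_mem, Finset.sum_empty]
  intro r _ h
  exact h (Or.inl rfl)

theorem Fnon_zero_right (Φ : GL (Fin 2) k → ℂ) (g : GL (Fin 2) k) (i : ℕ) :
    D.Fnon Φ g i 0 = 0 := by
  unfold Fnon
  rw [Finset.filter_false_of_mem, Finset.sum_empty]
  intro r _ h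
  exact h (Or.inr (Or.inl rfl))

theorem Fall_zero_left (Φ : GL (Fin 2) k → ℂ) (g : GL (Fin 2) k) (j : ℕ) :
    D.Fall Φ g 0 j = Φ (g * D.um 0 j 0) := by
  unfold Fall
  rw [D.R_zero, Finset.sum_singleton]

theorem Fnon_succ_succ (Φ : GL (Fin 2) k → ℂ) (s : ℂ)
    (hS : ∀ g, Φ (g * D.sc 1) = s * Φ g) (g : GL (Fin 2) k) (i j : ℕ) :
    D.Fnon Φ g (i + 1) (j + 1) = s * D.Fall Φ g i j := by
  unfold Fnon Fall
  have hfilt : (D.R (i + 1)).filter (fun r => ¬ Prim (i + 1) (j + 1) r)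
      = (D.R (i + 1)).filter (fun r => Valued.v r < 1) := by
    apply Finset.filter_congr
    intro r hr
    have hle := D.R_int _ _ hr
    unfold Prim
    constructor
    · intro h
      exact lt_of_le_of_ne hle (fun h' => h (Or.inr (Or.inr h')))
    · intro h h'
      rcases h' with h' | h' | h'
      · omega
      · omega
      · exact (ne_of_lt h) h'
  rw [hfilt, D.sum_R_succ_small, Finset.mul_sum]
  refine Finset.sum_congr rfl (fun r _ => ?_)
  rw [D.um_succ_succ, ← mul_assoc, hS]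

theorem Aall_eq_Pprim_add (Φ : GL (Fin 2) k → ℂ) (s : ℂ)
    (hS : ∀ g, Φ (g * D.sc 1) = s * Φ g) (n : ℕ) (g : GL (Fin 2) k) :
    D.Aall Φ (n + 2) g = D.Pprim Φ (n + 2) g + s * D.Aall Φ n g := by
  have h1 : D.Aall Φ (n + 2) g = D.Pprim Φ (n + 2) g
      + ∑ p ∈ Finset.HasAntidiagonal.antidiagonal (n + 2), D.Fnon Φ g p.1 p.2 := by
    unfold Aall Pprim
    rw [← Finset.sum_add_distrib]
    exact Finset.sum_congr rfl (fun p _ => D.Fall_eq Φ g p.1 p.2)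
  rw [h1, sum_ad_succ (fun i j => D.Fnon Φ g i j) (n + 1), D.Fnon_zero_left, zero_add,
    sum_ad_succ' (fun i j => D.Fnon Φ g (i + 1) j) n, D.Fnon_zero_right, zero_add]
  congr 1
  unfold Aall
  rw [Finset.mul_sum]
  exact Finset.sum_congr rfl (fun p _ => D.Fnon_succ_succ Φ s hS g p.1 p.2)

theorem Pprim_eq_Aall_of_le_one (Φ : GL (Fin 2) k → ℂ) (n : ℕ) (hn : n ≤ 1)
    (g : GL (Fin 2) k) : D.Pprim Φ n g = D.Aall Φ n g := by
  unfold Pprim Aall
  refine Finset.sum_congr rfl (fun p hp => ?_)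
  unfold Fprim Fall
  rw [Finset.filter_true_of_mem]
  intro r _
  have := Finset.HasAntidiagonal.mem_antidiagonal.1 hp
  rcases Nat.eq_zero_or_pos p.1 with h | h
  · exact Or.inl h
  · exact Or.inr (Or.inl (by omega))

theorem Aall_zero (Φ : GL (Fin 2) k → ℂ) (g : GL (Fin 2) k) : D.Aall Φ 0 g = Φ g := by
  unfold Aall
  rw [Finset.Nat.antidiagonal_zero, Finset.sum_singleton, D.Fall_zero_left, D.um_zero, mul_one]

theorem Aall_one (Φ : GL (Fin 2) k → ℂ) (g : GL (Fin 2) k) :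
    D.Aall Φ 1 g = Φ (g * D.um 0 1 0) + ∑ d ∈ D.T, Φ (g * D.um 1 0 d) := by
  unfold Aall
  rw [sum_ad_succ (fun i j => D.Fall Φ g i j) 0, Finset.Nat.antidiagonal_zero,
    Finset.sum_singleton, D.Fall_zero_left]
  congr 1
  unfold Fall
  rw [D.sum_R_succ, D.R_zero, Finset.sum_singleton]
  simp

/-- The main recursion `T · T(𝔭^{n+1}) = T(𝔭^{n+2}) + q S T(𝔭ⁿ)`. -/
theorem Aall_rec (Φ : GL (Fin 2) k → ℂ) (t s : ℂ)
    (hinv : ∀ u g : GL (Fin 2) k, InK u → Φ (g * u) = Φ g)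
    (hS : ∀ g, Φ (g * D.sc 1) = s * Φ g)
    (hT : ∀ g, Φ (g * D.um 0 1 0) + ∑ d ∈ D.T, Φ (g * D.um 1 0 d) = t * Φ g)
    (n : ℕ) (g : GL (Fin 2) k) :
    t * D.Aall Φ (n + 1) g = D.Aall Φ (n + 2) g + (D.T.card : ℂ) * s * D.Aall Φ n g := by
  -- the two parts of the left hand side
  have hX : ∑ p ∈ Finset.HasAntidiagonal.antidiagonal (n + 1),
      (∑ r ∈ D.R p.1, Φ (g * D.um p.1 p.2 r * D.um 0 1 0))
      = Φ (g * D.um 0 (n + 2) 0) + (D.T.card : ℂ) * s * D.Aall Φ n g := by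
    rw [sum_ad_succ (fun i j => ∑ r ∈ D.R i, Φ (g * D.um i j r * D.um 0 1 0)) n, D.R_zero,
      Finset.sum_singleton, mul_assoc, D.um_zero_mul]
    congr 1
    unfold Aall
    rw [Finset.mul_sum]
    refine Finset.sum_congr rfl (fun p _ => ?_)
    unfold Fall
    rw [D.sum_R_succ, Finset.mul_sum]
    refine Finset.sum_congr rfl (fun r _ => ?_)
    have : ∀ d ∈ D.T, Φ (g * D.um (p.1 + 1) p.2 (r + D.ϖ ^ p.1 * d) * D.um 0 1 0)
        = s * Φ (g * D.um p.1 p.2 r) := by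
      intro d hd
      rw [mul_assoc, D.um_succ_mul, ← mul_assoc, hinv _ _ (inK_nm (D.int d hd)), ← mul_assoc, hS]
    rw [Finset.sum_congr rfl this, Finset.sum_const, nsmul_eq_mul]
    ring
  have hY : ∑ p ∈ Finset.HasAntidiagonal.antidiagonal (n + 1),
      (∑ r ∈ D.R p.1, ∑ d ∈ D.T, Φ (g * D.um p.1 p.2 r * D.um 1 0 d))
      = ∑ p ∈ Finset.HasAntidiagonal.antidiagonal (n + 1), D.Fall Φ g (p.1 + 1) p.2 := by
    refine Finset.sum_congr rfl (fun p _ => ?_)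
    unfold Fall
    rw [D.sum_R_succ]
    refine Finset.sum_congr rfl (fun r _ => ?_)
    refine Finset.sum_congr rfl (fun d _ => ?_)
    rw [mul_assoc, D.um_mul_um_one]
  have hL : t * D.Aall Φ (n + 1) g
      = ∑ p ∈ Finset.HasAntidiagonal.antidiagonal (n + 1),
          (∑ r ∈ D.R p.1, Φ (g * D.um p.1 p.2 r * D.um 0 1 0))
        + ∑ p ∈ Finset.HasAntidiagonal.antidiagonal (n + 1),
          (∑ r ∈ D.R p.1, ∑ d ∈ D.T, Φ (g * D.um p.1 p.2 r * D.um 1 0 d)) := by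
    unfold Aall Fall
    rw [Finset.mul_sum, ← Finset.sum_add_distrib]
    refine Finset.sum_congr rfl (fun p _ => ?_)
    rw [Finset.mul_sum, ← Finset.sum_add_distrib]
    refine Finset.sum_congr rfl (fun r _ => ?_)
    rw [← hT]
  have hR : D.Aall Φ (n + 2) g = Φ (g * D.um 0 (n + 2) 0)
      + ∑ p ∈ Finset.HasAntidiagonal.antidiagonal (n + 1), D.Fall Φ g (p.1 + 1) p.2 := by
    unfold Aall
    rw [sum_ad_succ (fun i j => D.Fall Φ g i j) (n + 1), D.Fall_zero_left]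
  rw [hL, hX, hY, hR]
  ring

end ResData

/-- The eigenvalue of `T(𝔭ⁿ)`. -/
def alpha (t s : ℂ) (q : ℕ) : ℕ → ℂ
  | 0 => 1
  | 1 => t
  | (n + 2) => t * alpha t s q (n + 1) - (q : ℂ) * s * alpha t s q n

theorem alpha_zero (t s : ℂ) (q : ℕ) : alpha t s q 0 = 1 := by rw [alpha]

theorem alpha_one (t s : ℂ) (q : ℕ) : alpha t s q 1 = t := by rw [alpha]

theorem alpha_succ_succ (t s : ℂ) (q : ℕ) (n : ℕ) :
    alpha t s q (n + 2) = t * alpha t s q (n + 1) - (q : ℂ) * s * alpha t s q n := by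
  rw [alpha]

namespace ResData

variable (D : ResData k)

theorem Aall_eq (Φ : GL (Fin 2) k → ℂ) (t s : ℂ)
    (hinv : ∀ u g : GL (Fin 2) k, InK u → Φ (g * u) = Φ g)
    (hS : ∀ g, Φ (g * D.sc 1) = s * Φ g)
    (hT : ∀ g, Φ (g * D.um 0 1 0) + ∑ d ∈ D.T, Φ (g * D.um 1 0 d) = t * Φ g) :
    ∀ (n : ℕ) (g : GL (Fin 2) k), D.Aall Φ n g = alpha t s D.T.card n * Φ g := by
  have key : ∀ n : ℕ, (∀ g, D.Aall Φ n g = alpha t s D.T.card n * Φ g) ∧
      ∀ g, D.Aall Φ (n + 1) g = alpha t s D.T.card (n + 1) * Φ g := by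
    intro n
    induction n with
    | zero =>
      refine ⟨fun g => ?_, fun g => ?_⟩
      · rw [D.Aall_zero, alpha_zero, one_mul]
      · rw [D.Aall_one, hT, alpha_one]
    | succ n ih =>
      refine ⟨ih.2, fun g => ?_⟩
      have h := D.Aall_rec Φ t s hinv hS hT n g
      rw [ih.1 g, ih.2 g] at h
      rw [alpha_succ_succ]
      linear_combination -h
  exact fun n g => (key n).1 g

theorem Pprim_eq (Φ : GL (Fin 2) k → ℂ) (t s : ℂ)
    (hinv : ∀ u g : GL (Fin 2) k, InK u → Φ (g * u) = Φ g)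
    (hS : ∀ g, Φ (g * D.sc 1) = s * Φ g)
    (hT : ∀ g, Φ (g * D.um 0 1 0) + ∑ d ∈ D.T, Φ (g * D.um 1 0 d) = t * Φ g)
    (n : ℕ) (g : GL (Fin 2) k) :
    D.Pprim Φ (n + 2) g = (alpha t s D.T.card (n + 2) - s * alpha t s D.T.card n) * Φ g := by
  have h := D.Aall_eq_Pprim_add Φ s hS n g
  rw [D.Aall_eq Φ t s hinv hS hT, D.Aall_eq Φ t s hinv hS hT] at h
  linear_combination -h

end ResData

end Fermat.Agent.LT.T6.H305

end
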